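import Mathlib
import Fermat.Prelude.Def_FLTPrelim_Modularity

/-!
# DS-CT, row CT0: `q`-expansions on `Γ₁(M)`; elements of `Γ₀(M)` with prescribed lower right entry
-/

set_option autoImplicit false

noncomputable section

namespace Fermat.Agent.DS

open CongruenceSubgroup UpperHalfPlane ModularFormClass
open scoped MatrixGroups ModularForm

theorem dsct_one_mem_strictPeriods (M : ℕ) :
    (1 : ℝ) ∈ ((Gamma1 M : Subgroup SL(2, ℤ)) : Subgroup (GL (Fin 2) ℝ)).strictPeriods := by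
  simp

section

variable {M : ℕ} {k : ℤ}

theorem dsct_qCoeff_add (f g : CuspForm (Gamma1 M) k) (n : ℕ) :
    qCoeff (⇑(f + g)) n = qCoeff f n + qCoeff g n := by
  unfold qCoeff
  rw [FunLike.coe_add,
    ModularForm.qExpansion_add one_pos (dsct_one_mem_strictPeriods M) f g, map_add]

theorem dsct_qCoeff_smul (c : ℂ) (f : CuspForm (Gamma1 M) k) (n : ℕ) :
    qCoeff (⇑(c • f)) n = c * qCoeff f n := by
  unfold qCoeff
  rw [FunLike.coe_smul,
    ModularForm.qExpansion_smul one_pos (dsct_one_mem_strictPeriods M) c f]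
  simp

theorem dsct_qCoeff_zero (n : ℕ) : qCoeff ((0 : CuspForm (Gamma1 M) k) : ℍ → ℂ) n = 0 := by
  unfold qCoeff
  rw [FunLike.coe_zero, qExpansion_zero]
  simp

theorem dsct_qCoeff_neg (f : CuspForm (Gamma1 M) k) (n : ℕ) :
    qCoeff (⇑(-f)) n = -qCoeff f n := by
  have := dsct_qCoeff_smul (-1 : ℂ) f n
  simpa using this

theorem dsct_qCoeff_sub (f g : CuspForm (Gamma1 M) k) (n : ℕ) :
    qCoeff (⇑(f - g)) n = qCoeff f n - qCoeff g n := by
  rw [sub_eq_add_neg, dsct_qCoeff_add, dsct_qCoeff_neg, sub_eq_add_neg]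

theorem dsct_qCoeff_sum {ι : Type*} (s : Finset ι) (f : ι → CuspForm (Gamma1 M) k) (n : ℕ) :
    qCoeff (⇑(∑ i ∈ s, f i)) n = ∑ i ∈ s, qCoeff (f i) n := by
  classical
  induction s using Finset.induction_on with
  | empty => simpa using dsct_qCoeff_zero (M := M) (k := k) n
  | insert a s ha ih => rw [Finset.sum_insert ha, Finset.sum_insert ha, dsct_qCoeff_add, ih]

/-- the `q`-expansion principle. -/
theorem dsct_eq_zero (f : CuspForm (Gamma1 M) k) (h : ∀ n, qCoeff f n = 0) : f = 0 := by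
  have : Fact (IsCusp OnePoint.infty ((Gamma1 M : Subgroup SL(2, ℤ)) : Subgroup (GL (Fin 2) ℝ))) :=
    ⟨Subgroup.isCusp_of_mem_strictPeriods one_pos (dsct_one_mem_strictPeriods M)⟩
  ext τ
  have hs := ModularForm.hasSum_qExpansion (f := f) one_pos (dsct_one_mem_strictPeriods M) τ
  have h0 : (fun m ↦ (qExpansion 1 f).coeff m * Function.Periodic.qParam 1 τ ^ m) = fun _ ↦ 0 := by
    funext m
    have := h m
    unfold qCoeff at this
    rw [this, zero_mul]
  rw [h0] at hs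
  exact hs.unique hasSum_zero

theorem dsct_ext (f g : CuspForm (Gamma1 M) k) (h : ∀ n, qCoeff f n = qCoeff g n) : f = g := by
  rw [← sub_eq_zero]
  refine dsct_eq_zero _ fun n => ?_
  rw [dsct_qCoeff_sub, h n, sub_self]

end

section

variable {M : ℕ} [NeZero M]

/-- every unit mod `M` is the lower right entry of an element of `Γ₀(M)`. -/
theorem dsct_exists_gamma0 (d : (ZMod M)ˣ) :
    ∃ γ : SL(2, ℤ), γ ∈ Gamma0 M ∧ ((γ 1 1 : ℤ) : ZMod M) = d := by
  have hcop : Nat.Coprime (d : ZMod M).val M := ZMod.val_coe_unit_coprime d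
  have hgcd : IsCoprime ((d : ZMod M).val : ℤ) (M : ℤ) := Nat.isCoprime_iff_coprime.mpr hcop
  obtain ⟨a, b, hab⟩ := hgcd
  -- a * d₀ + b * M = 1
  have hdet : (!![a, -b; (M : ℤ), ((d : ZMod M).val : ℤ)]).det = 1 := by
    rw [Matrix.det_fin_two_of]; linarith
  let γ : SL(2, ℤ) := ⟨!![a, -b; (M : ℤ), ((d : ZMod M).val : ℤ)], hdet⟩
  have h10 : γ 1 0 = (M : ℤ) := rfl
  have h11 : γ 1 1 = ((d : ZMod M).val : ℤ) := rfl
  refine ⟨γ, ?_, ?_⟩
  · rw [Gamma0_mem, h10]
    simp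
  · rw [h11]
    simp

/-- the lower right entry of an element of `Γ₀(M)` is a unit mod `M`. -/
theorem dsct_isUnit_gamma0 (γ : SL(2, ℤ)) (hγ : γ ∈ Gamma0 M) :
    IsUnit ((γ 1 1 : ℤ) : ZMod M) := by
  rw [Gamma0_mem] at hγ
  have hdet : γ 0 0 * γ 1 1 - γ 0 1 * γ 1 0 = 1 := by
    have := γ.det_coe
    rw [Matrix.det_fin_two] at this
    exact this
  have : ((γ 0 0 : ℤ) : ZMod M) * ((γ 1 1 : ℤ) : ZMod M) = 1 := by
    have h2 := congrArg (fun z : ℤ => (z : ZMod M)) hdet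
    simp only [Int.cast_sub, Int.cast_mul, Int.cast_one] at h2
    rw [hγ, mul_zero, sub_zero] at h2
    exact h2
  exact IsUnit.of_mul_eq_one_right _ this

end

end Fermat.Agent.DS
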