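import Mathlib
import Fermat.Agent.DS.HO.Ops
import Fermat.Agent.DS.CT.QExp

/-!
# DS-CT, row CT1: the Hecke operators `T_p`, `T_q` (`p, q ∤ M`) on `S_k(Γ₁(M))` commute
-/

set_option autoImplicit false

noncomputable section

namespace Fermat.Agent.DS

open CongruenceSubgroup UpperHalfPlane ModularFormClass
open scoped MatrixGroups ModularForm

section

variable (M : ℕ) [NeZero M] (k : ℤ)

/-- the unit `p mod M`. -/
def dsctUnit {p : ℕ} (hp : p.Prime) (hpM : ¬ p ∣ M) : (ZMod M)ˣ :=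
  ZMod.unitOfCoprime p ((Nat.Prime.coprime_iff_not_dvd hp).mpr hpM)

omit [NeZero M] in
theorem dsctUnit_coe {p : ℕ} (hp : p.Prime) (hpM : ¬ p ∣ M) :
    ((dsctUnit M hp hpM : (ZMod M)ˣ) : ZMod M) = (p : ZMod M) := rfl

theorem dsct_qCoeff_heckeT {p : ℕ} (hp : p.Prime) (hpM : ¬ p ∣ M) (f : CuspForm (Gamma1 M) k)
    (n : ℕ) :
    qCoeff (dsHeckeT M k hp hpM f) n = qCoeff f (p * n)
      + (p : ℂ) ^ (k - 1) * (if p ∣ n then
          qCoeff (dsDiamond M k (dsctUnit M hp hpM) f) (n / p) else 0) :=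
  qCoeff_dsHeckeT M k hp hpM f n

theorem dsct_heckeT_diamond {p : ℕ} (hp : p.Prime) (hpM : ¬ p ∣ M) (d : (ZMod M)ˣ)
    (f : CuspForm (Gamma1 M) k) :
    dsHeckeT M k hp hpM (dsDiamond M k d f) = dsDiamond M k d (dsHeckeT M k hp hpM f) := by
  have := congrArg (fun L => L f) (dsHeckeT_comm_diamond M k hp hpM d)
  simpa using this

theorem dsct_diamond_comm (d e : (ZMod M)ˣ) (f : CuspForm (Gamma1 M) k) :
    dsDiamond M k d (dsDiamond M k e f) = dsDiamond M k e (dsDiamond M k d f) := by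
  have h1 := congrArg (fun L => L f) (dsDiamond_mul M k d e)
  have h2 := congrArg (fun L => L f) (dsDiamond_mul M k e d)
  simp only [LinearMap.comp_apply] at h1 h2
  rw [← h1, ← h2, mul_comm]

theorem dsct_heckeT_comm_apply {p q : ℕ} (hp : p.Prime) (hpM : ¬ p ∣ M)
    (hq : q.Prime) (hqM : ¬ q ∣ M) (hpq : p ≠ q) (f : CuspForm (Gamma1 M) k) :
    dsHeckeT M k hp hpM (dsHeckeT M k hq hqM f) = dsHeckeT M k hq hqM (dsHeckeT M k hp hpM f) := by
  refine dsct_ext _ _ fun n => ?_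
  have hcop : Nat.Coprime p q := (Nat.coprime_primes hp hq).mpr hpq
  have hqpn : q ∣ p * n ↔ q ∣ n := (Nat.Coprime.dvd_mul_left hcop.symm)
  have hpqn : p ∣ q * n ↔ p ∣ n := (Nat.Coprime.dvd_mul_left hcop)
  rw [dsct_qCoeff_heckeT, dsct_qCoeff_heckeT, dsct_qCoeff_heckeT M k hq hqM (dsHeckeT M k hp hpM f),
    dsct_qCoeff_heckeT M k hp hpM f (q * n)]
  rw [← dsct_heckeT_diamond, ← dsct_heckeT_diamond]
  simp only [hqpn, hpqn]
  by_cases h1 : p ∣ n <;> by_cases h2 : q ∣ n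
  · obtain ⟨a, rfl⟩ := h1
    have h2' : q ∣ a := (Nat.Coprime.dvd_mul_left hcop.symm).mp h2
    obtain ⟨b, rfl⟩ := h2'
    have e1 : p * (q * b) / p = q * b := Nat.mul_div_cancel_left _ hp.pos
    have e2 : p * (q * b) / q = p * b := by
      rw [Nat.mul_left_comm]; exact Nat.mul_div_cancel_left _ hq.pos
    have e3 : p * (p * (q * b)) / q = p * (p * b) := by
      rw [show p * (p * (q * b)) = q * (p * (p * b)) by ring]
      exact Nat.mul_div_cancel_left _ hq.pos
    have e4 : q * (p * (q * b)) / p = q * (q * b) := by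
      rw [show q * (p * (q * b)) = p * (q * (q * b)) by ring]
      exact Nat.mul_div_cancel_left _ hp.pos
    rw [if_pos (Dvd.intro _ rfl), if_pos h2, if_pos (Dvd.intro _ rfl), if_pos h2,
      dsct_qCoeff_heckeT, dsct_qCoeff_heckeT, e1, e2, e3, e4]
    rw [if_pos (Dvd.intro _ rfl), if_pos (Dvd.intro _ rfl),
      Nat.mul_div_cancel_left _ hq.pos, Nat.mul_div_cancel_left _ hp.pos]
    rw [dsct_diamond_comm M k (dsctUnit M hq hqM) (dsctUnit M hp hpM) f]
    rw [show p * (q * (p * (q * b))) = q * (p * (p * (q * b))) by ring]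
    ring
  · obtain ⟨a, rfl⟩ := h1
    have h2' : ¬ q ∣ a := fun h => h2 (Dvd.dvd.mul_left h p)
    have e1 : p * a / p = a := Nat.mul_div_cancel_left _ hp.pos
    have e4 : q * (p * a) / p = q * a := by
      rw [Nat.mul_left_comm]; exact Nat.mul_div_cancel_left _ hp.pos
    rw [if_pos (Dvd.intro _ rfl), if_neg h2, if_pos (Dvd.intro _ rfl), if_neg h2,
      dsct_qCoeff_heckeT, e1, e4, if_neg h2']
    rw [show p * (q * (p * a)) = q * (p * (p * a)) by ring]
    ring
  · obtain ⟨b, rfl⟩ := h2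
    have h1' : ¬ p ∣ b := fun h => h1 (Dvd.dvd.mul_left h q)
    have e1 : q * b / q = b := Nat.mul_div_cancel_left _ hq.pos
    have e4 : p * (q * b) / q = p * b := by
      rw [Nat.mul_left_comm]; exact Nat.mul_div_cancel_left _ hq.pos
    rw [if_neg h1, if_pos (Dvd.intro _ rfl), if_neg h1, if_pos (Dvd.intro _ rfl),
      dsct_qCoeff_heckeT M k hp hpM, e1, e4, if_neg h1']
    rw [show p * (q * (q * b)) = q * (p * (q * b)) by ring]
    ring
  · rw [if_neg h1, if_neg h2, if_neg h1, if_neg h2]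
    rw [show p * (q * n) = q * (p * n) by ring]
    ring

theorem dsct_heckeT_comm {p q : ℕ} (hp : p.Prime) (hpM : ¬ p ∣ M)
    (hq : q.Prime) (hqM : ¬ q ∣ M) :
    (dsHeckeT M k hp hpM).comp (dsHeckeT M k hq hqM)
      = (dsHeckeT M k hq hqM).comp (dsHeckeT M k hp hpM) := by
  by_cases hpq : p = q
  · subst hpq
    rfl
  · refine LinearMap.ext fun f => ?_
    simp only [LinearMap.comp_apply]
    exact dsct_heckeT_comm_apply M k hp hpM hq hqM hpq f

end

end Fermat.Agent.DS
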