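import Mathlib
import Fermat.Agent.DS.HO.Ops
import Fermat.Agent.DS.CT.Comm

/-!
# DS-CT, row CT2: the Hecke ring with `ℤ̄`-scalars acting on `S₂(Γ₁(M))`
-/

set_option autoImplicit false

noncomputable section

namespace Fermat.Agent.DS

open CongruenceSubgroup UpperHalfPlane ModularFormClass
open scoped MatrixGroups ModularForm

local notation "ℤbar" => integralClosure ℤ ℂ

section

variable (M : ℕ) [NeZero M]

/-- the generators: `ℤ̄`-scalars, `T_p` (`p ∤ M`), diamonds. -/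
def dsctGen : Set (Module.End ℂ (CuspForm (Gamma1 M) 2)) :=
  {t | (∃ z : ℤbar, t = (z : ℂ) • (1 : Module.End ℂ (CuspForm (Gamma1 M) 2))) ∨
    (∃ (p : ℕ) (hp : p.Prime) (hpM : ¬ p ∣ M), t = dsHeckeT M 2 hp hpM) ∨
    (∃ d : (ZMod M)ˣ, t = dsDiamond M 2 d)}

theorem dsctGen_comm : ∀ s ∈ dsctGen M, ∀ t ∈ dsctGen M, s * t = t * s := by
  have hsc : ∀ (z : ℂ) (t : Module.End ℂ (CuspForm (Gamma1 M) 2)),
      (z • (1 : Module.End ℂ (CuspForm (Gamma1 M) 2))) * t = t * (z • 1) := by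
    intro z t
    rw [smul_mul_assoc, one_mul, mul_smul_comm, mul_one]
  rintro s (⟨z, rfl⟩ | ⟨p, hp, hpM, rfl⟩ | ⟨d, rfl⟩) t (⟨w, rfl⟩ | ⟨q, hq, hqM, rfl⟩ | ⟨e, rfl⟩)
  · exact hsc _ _
  · exact hsc _ _
  · exact hsc _ _
  · exact (hsc _ _).symm
  · exact dsct_heckeT_comm M 2 hp hpM hq hqM
  · exact dsHeckeT_comm_diamond M 2 hp hpM e
  · exact (hsc _ _).symm
  · exact (dsHeckeT_comm_diamond M 2 hq hqM d).symm
  · rw [Module.End.mul_eq_comp, Module.End.mul_eq_comp, ← dsDiamond_mul, ← dsDiamond_mul, mul_comm]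

/-- the Hecke ring `T`. -/
def dsctT : Subring (Module.End ℂ (CuspForm (Gamma1 M) 2)) := Subring.closure (dsctGen M)

instance dsctT.instCommRing : CommRing (dsctT M) :=
  { (inferInstance : Ring (dsctT M)) with
    mul_comm := fun a b => by
      have := Subring.isMulCommutative_closure (dsctGen_comm M)
      exact this.is_comm.comm a b }

theorem dsctT_scalar_mem (z : ℤbar) :
    (z : ℂ) • (1 : Module.End ℂ (CuspForm (Gamma1 M) 2)) ∈ dsctT M :=
  Subring.subset_closure (Or.inl ⟨z, rfl⟩)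

theorem dsctT_heckeT_mem {p : ℕ} (hp : p.Prime) (hpM : ¬ p ∣ M) : dsHeckeT M 2 hp hpM ∈ dsctT M :=
  Subring.subset_closure (Or.inr (Or.inl ⟨p, hp, hpM, rfl⟩))

theorem dsctT_diamond_mem (d : (ZMod M)ˣ) : dsDiamond M 2 d ∈ dsctT M :=
  Subring.subset_closure (Or.inr (Or.inr ⟨d, rfl⟩))

/-- the scalar `z • 1` as an element of `T`. -/
def dsctScalar (z : ℤbar) : dsctT M := ⟨_, dsctT_scalar_mem M z⟩

/-- `T_p` as an element of `T`. -/
def dsctTp {p : ℕ} (hp : p.Prime) (hpM : ¬ p ∣ M) : dsctT M := ⟨_, dsctT_heckeT_mem M hp hpM⟩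

/-- `⟨d⟩` as an element of `T`. -/
def dsctDia (d : (ZMod M)ˣ) : dsctT M := ⟨_, dsctT_diamond_mem M d⟩

/-- induction principle for properties of elements of `T` closed under the ring operations. -/
theorem dsctT_induction {P : Module.End ℂ (CuspForm (Gamma1 M) 2) → Prop}
    (hz : ∀ z : ℤbar, P ((z : ℂ) • 1))
    (hT : ∀ (p : ℕ) (hp : p.Prime) (hpM : ¬ p ∣ M), P (dsHeckeT M 2 hp hpM))
    (hd : ∀ d : (ZMod M)ˣ, P (dsDiamond M 2 d))
    (hadd : ∀ s t, P s → P t → P (s + t)) (hneg : ∀ s, P s → P (-s))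
    (hmul : ∀ s t, P s → P t → P (s * t)) (t : dsctT M) :
    P (t : Module.End ℂ (CuspForm (Gamma1 M) 2)) := by
  have h1 : P 1 := by
    have := hz 1
    simpa using this
  have h0 : P 0 := by
    have := hz 0
    simpa using this
  refine Subring.closure_induction (p := fun x _ => P x) ?_ h0 h1 ?_ ?_ ?_ t.2
  · rintro x (⟨z, rfl⟩ | ⟨p, hp, hpM, rfl⟩ | ⟨d, rfl⟩)
    · exact hz z
    · exact hT p hp hpM
    · exact hd d
  · intro x y _ _ hx hy; exact hadd x y hx hy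
  · intro x _ hx; exact hneg x hx
  · intro x y _ _ hx hy; exact hmul x y hx hy

end

end Fermat.Agent.DS
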