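import Mathlib
import Fermat.Agent.DS.HO.Ops
import Fermat.Agent.DS.CT.Ring

/-!
# DS-CT, row CT5: the subgroup `L⁺` and the ideal `m₀`
-/

set_option autoImplicit false
set_option linter.unusedSectionVars false

noncomputable section

namespace Fermat.Agent.DS

open CongruenceSubgroup UpperHalfPlane ModularFormClass
open scoped MatrixGroups ModularForm

local notation "ℤbar" => integralClosure ℤ ℂ

/-- the complex number `c` is (the image of) an element of the ideal `Λ` of `ℤ̄`. -/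
def DsctIn (Λ : Ideal ℤbar) (c : ℂ) : Prop := ∃ x : ℤbar, x ∈ Λ ∧ (x : ℂ) = c

namespace DsctIn

variable {Λ : Ideal ℤbar} {c c' : ℂ}

theorem zero : DsctIn Λ 0 := ⟨0, Λ.zero_mem, rfl⟩

theorem add (h : DsctIn Λ c) (h' : DsctIn Λ c') : DsctIn Λ (c + c') := by
  obtain ⟨x, hx, rfl⟩ := h
  obtain ⟨y, hy, rfl⟩ := h'
  exact ⟨x + y, Λ.add_mem hx hy, by push_cast; rfl⟩

theorem neg (h : DsctIn Λ c) : DsctIn Λ (-c) := by
  obtain ⟨x, hx, rfl⟩ := h
  exact ⟨-x, Λ.neg_mem hx, by push_cast; rfl⟩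

theorem sub (h : DsctIn Λ c) (h' : DsctIn Λ c') : DsctIn Λ (c - c') := by
  rw [sub_eq_add_neg]; exact h.add h'.neg

theorem mul_left (h : DsctIn Λ c) {w : ℂ} (hw : IsIntegral ℤ w) : DsctIn Λ (w * c) := by
  obtain ⟨x, hx, rfl⟩ := h
  exact ⟨⟨w, hw⟩ * x, Λ.mul_mem_left _ hx, by push_cast; rfl⟩

theorem mul_right (h : DsctIn Λ c) {w : ℂ} (hw : IsIntegral ℤ w) : DsctIn Λ (c * w) := by
  rw [mul_comm]; exact h.mul_left hw

theorem of_mem {x : ℤbar} (hx : x ∈ Λ) : DsctIn Λ (x : ℂ) := ⟨x, hx, rfl⟩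

theorem isIntegral (h : DsctIn Λ c) : IsIntegral ℤ c := by
  obtain ⟨x, _, rfl⟩ := h
  exact x.2

theorem mem_iff {x : ℤbar} : DsctIn Λ (x : ℂ) ↔ x ∈ Λ := by
  constructor
  · rintro ⟨y, hy, hyx⟩
    have : y = x := Subtype.ext hyx
    rwa [← this]
  · exact of_mem

theorem sum {ι : Type*} (s : Finset ι) (f : ι → ℂ) (h : ∀ i ∈ s, DsctIn Λ (f i)) :
    DsctIn Λ (∑ i ∈ s, f i) := by
  classical
  induction s using Finset.induction_on with
  | empty => simpa using zero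
  | insert a s ha ih =>
    rw [Finset.sum_insert ha]
    exact (h a (Finset.mem_insert_self a s)).add
      (ih fun i hi => h i (Finset.mem_insert_of_mem hi))

end DsctIn

section

variable (M : ℕ) [NeZero M]

theorem dsct_two_sub_one (p : ℕ) : (p : ℂ) ^ ((2 : ℤ) - 1) = p := by
  norm_num

/-- forms all of whose diamond translates have `q`-coefficients in `Λ`. -/
def dsctLplus (Λ : Ideal ℤbar) : AddSubgroup (CuspForm (Gamma1 M) 2) where
  carrier := {h | ∀ (d : (ZMod M)ˣ) (n : ℕ), DsctIn Λ (qCoeff (dsDiamond M 2 d h) n)}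
  zero_mem' := by
    intro d n
    rw [map_zero, dsct_qCoeff_zero]
    exact DsctIn.zero
  add_mem' := by
    intro a b ha hb d n
    rw [map_add, dsct_qCoeff_add]
    exact (ha d n).add (hb d n)
  neg_mem' := by
    intro a ha d n
    rw [map_neg, dsct_qCoeff_neg]
    exact (ha d n).neg

theorem dsct_mem_Lplus {Λ : Ideal ℤbar} {h : CuspForm (Gamma1 M) 2} :
    h ∈ dsctLplus M Λ ↔ ∀ (d : (ZMod M)ˣ) (n : ℕ), DsctIn Λ (qCoeff (dsDiamond M 2 d h) n) :=
  Iff.rfl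

theorem dsct_diamond_diamond (d e : (ZMod M)ˣ) (h : CuspForm (Gamma1 M) 2) :
    dsDiamond M 2 d (dsDiamond M 2 e h) = dsDiamond M 2 (d * e) h := by
  rw [dsDiamond_mul]; rfl

theorem dsctLplus_stable (Λ : Ideal ℤbar) (t : dsctT M) {h : CuspForm (Gamma1 M) 2}
    (hh : h ∈ dsctLplus M Λ) :
    (t : Module.End ℂ (CuspForm (Gamma1 M) 2)) h ∈ dsctLplus M Λ := by
  revert h
  refine dsctT_induction M (P := fun t => ∀ {h : CuspForm (Gamma1 M) 2}, h ∈ dsctLplus M Λ →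
    t h ∈ dsctLplus M Λ) ?_ ?_ ?_ ?_ ?_ ?_ t
  · intro z h hh d n
    rw [LinearMap.smul_apply, Module.End.one_apply, map_smul, dsct_qCoeff_smul]
    exact (hh d n).mul_left z.2
  · intro p hp hpM h hh d n
    rw [← dsct_heckeT_diamond, dsct_qCoeff_heckeT, dsct_two_sub_one]
    refine (hh d _).add ?_
    split_ifs
    · rw [dsct_diamond_diamond]
      exact (hh _ _).mul_left (isIntegral_algebraMap (R := ℤ) (x := (p : ℤ)) |> fun h => by
        simpa using h)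
    · rw [mul_zero]; exact DsctIn.zero
  · intro e h hh d n
    rw [dsct_diamond_diamond]
    exact hh _ n
  · intro s t hs ht h hh
    rw [LinearMap.add_apply]
    exact (dsctLplus M Λ).add_mem (hs hh) (ht hh)
  · intro s hs h hh
    rw [LinearMap.neg_apply]
    exact (dsctLplus M Λ).neg_mem (hs hh)
  · intro s t hs ht h hh
    rw [Module.End.mul_apply]
    exact hs (ht hh)

/-- the annihilator of `g₀` modulo `L⁺`. -/
def dsctM0 (Λ : Ideal ℤbar) (g₀ : CuspForm (Gamma1 M) 2) : Ideal (dsctT M) where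
  carrier := {t | (t : Module.End ℂ (CuspForm (Gamma1 M) 2)) g₀ ∈ dsctLplus M Λ}
  zero_mem' := by
    show ((0 : dsctT M) : Module.End ℂ (CuspForm (Gamma1 M) 2)) g₀ ∈ dsctLplus M Λ
    rw [Subring.coe_zero, LinearMap.zero_apply]
    exact (dsctLplus M Λ).zero_mem
  add_mem' := by
    intro a b ha hb
    show ((a + b : dsctT M) : Module.End ℂ (CuspForm (Gamma1 M) 2)) g₀ ∈ dsctLplus M Λ
    rw [Subring.coe_add, LinearMap.add_apply]
    exact (dsctLplus M Λ).add_mem ha hb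
  smul_mem' := by
    intro s t ht
    show ((s * t : dsctT M) : Module.End ℂ (CuspForm (Gamma1 M) 2)) g₀ ∈ dsctLplus M Λ
    rw [Subring.coe_mul, Module.End.mul_apply]
    exact dsctLplus_stable M Λ s ht

theorem dsct_mem_M0 {Λ : Ideal ℤbar} {g₀ : CuspForm (Gamma1 M) 2} {t : dsctT M} :
    t ∈ dsctM0 M Λ g₀ ↔ (t : Module.End ℂ (CuspForm (Gamma1 M) 2)) g₀ ∈ dsctLplus M Λ := Iff.rfl

/-- `m₀` is proper as soon as one coefficient of `g₀` is not in `Λ`. -/
theorem dsctM0_ne_top {Λ : Ideal ℤbar} {g₀ : CuspForm (Gamma1 M) 2} {n : ℕ}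
    (h : ¬ DsctIn Λ (qCoeff g₀ n)) : dsctM0 M Λ g₀ ≠ ⊤ := by
  intro htop
  have h1 : (1 : dsctT M) ∈ dsctM0 M Λ g₀ := by rw [htop]; trivial
  rw [dsct_mem_M0, Subring.coe_one, Module.End.one_apply] at h1
  have := h1 1 n
  rw [dsDiamond_one] at this
  exact h this

/-- `Λ • 1 ⊆ m₀` when `g₀` has integral diamond-`q`-expansions. -/
theorem dsct_scalar_mem_M0 {Λ : Ideal ℤbar} {g₀ : CuspForm (Gamma1 M) 2}
    (hg : ∀ (d : (ZMod M)ˣ) (n : ℕ), IsIntegral ℤ (qCoeff (dsDiamond M 2 d g₀) n))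
    {z : ℤbar} (hz : z ∈ Λ) : dsctScalar M z ∈ dsctM0 M Λ g₀ := by
  rw [dsct_mem_M0]
  intro d n
  show DsctIn Λ (qCoeff (dsDiamond M 2 d (((z : ℂ) • (1 : Module.End ℂ _)) g₀)) n)
  rw [LinearMap.smul_apply, Module.End.one_apply, map_smul, dsct_qCoeff_smul]
  exact (DsctIn.of_mem hz).mul_right (hg d n)

/-- `T_p - a • 1 ∈ m₀` from the congruences on the diamond-`q`-expansions of `g₀`. -/
theorem dsct_heckeT_sub_mem_M0 {Λ : Ideal ℤbar} {g₀ : CuspForm (Gamma1 M) 2}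
    {p : ℕ} (hp : p.Prime) (hpM : ¬ p ∣ M) (a : ℤbar)
    (h : ∀ (d : (ZMod M)ˣ) (n : ℕ), DsctIn Λ (qCoeff (dsDiamond M 2 d g₀) (p * n)
      + (p : ℂ) * (if p ∣ n then
          qCoeff (dsDiamond M 2 (dsctUnit M hp hpM * d) g₀) (n / p) else 0)
      - (a : ℂ) * qCoeff (dsDiamond M 2 d g₀) n)) :
    dsctTp M hp hpM - dsctScalar M a ∈ dsctM0 M Λ g₀ := by
  rw [dsct_mem_M0]
  intro d n
  have e : ((dsctTp M hp hpM - dsctScalar M a : dsctT M) : Module.End ℂ (CuspForm (Gamma1 M) 2))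
      = dsHeckeT M 2 hp hpM - (a : ℂ) • (1 : Module.End ℂ (CuspForm (Gamma1 M) 2)) :=
    rfl
  rw [e, LinearMap.sub_apply, LinearMap.smul_apply, Module.End.one_apply, map_sub, map_smul,
    dsct_qCoeff_sub, dsct_qCoeff_smul, ← dsct_heckeT_diamond, dsct_qCoeff_heckeT,
    dsct_two_sub_one, dsct_diamond_diamond]
  exact h d n

/-- `⟨e⟩ - w • 1 ∈ m₀` from the congruences on the diamond-`q`-expansions of `g₀`. -/
theorem dsct_diamond_sub_mem_M0 {Λ : Ideal ℤbar} {g₀ : CuspForm (Gamma1 M) 2}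
    (e : (ZMod M)ˣ) (w : ℤbar)
    (h : ∀ (d : (ZMod M)ˣ) (n : ℕ), DsctIn Λ (qCoeff (dsDiamond M 2 (d * e) g₀) n
      - (w : ℂ) * qCoeff (dsDiamond M 2 d g₀) n)) :
    dsctDia M e - dsctScalar M w ∈ dsctM0 M Λ g₀ := by
  rw [dsct_mem_M0]
  intro d n
  have e' : ((dsctDia M e - dsctScalar M w : dsctT M) : Module.End ℂ (CuspForm (Gamma1 M) 2))
      = dsDiamond M 2 e - (w : ℂ) • (1 : Module.End ℂ (CuspForm (Gamma1 M) 2)) :=
    rfl
  rw [e', LinearMap.sub_apply, LinearMap.smul_apply, Module.End.one_apply, map_sub, map_smul,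
    dsct_qCoeff_sub, dsct_qCoeff_smul, dsct_diamond_diamond]
  exact h d n

end

end Fermat.Agent.DS
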