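import Mathlib
import Fermat.Agent.S23.AutC
import Fermat.Agent.DS.HO.Ops
import Fermat.Agent.DS.R.Main
import Fermat.Agent.DS.B.Lattice
import Fermat.Agent.DS.CT.Ring

/-!
# DS-CT, row CT3 (helper7): integrality of the eigenvalues on `S₂(Γ₁(M))`

`dsctLZ M` = the lattice of forms all of whose diamond translates have integer `q`-coefficients.
It is a finitely generated abelian group (Sturm), stable under the `T_p` (HO-3) and spans
`S₂(Γ₁(M))` over `ℂ` (R: integral structure + `Aut(ℂ)` commutes with diamonds + bounded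
denominators).  Hence eigenvalues of `T_p` are algebraic integers (Cayley–Hamilton), eigenvalues of
the diamonds are roots of unity, and every character of `T` afforded by an eigenvector is integral.

Only the API lemmas of the HO/R packages are consumed.  Private prefix `dscti_`.
-/

set_option autoImplicit false

noncomputable section

namespace Fermat.Agent.DS

open CongruenceSubgroup UpperHalfPlane ModularFormClass Polynomial
open scoped MatrixGroups ModularForm

local notation "ℤbar" => integralClosure ℤ ℂ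

/-- Abstract Cayley–Hamilton step: `T` a `ℂ`-linear endomorphism of `V`, `L` a finitely generated
`ℤ`-submodule stable under `T` and spanning `V`; then every eigenvalue of `T` is an algebraic
integer. -/
theorem dscti_isIntegral_of_lattice {V : Type*} [AddCommGroup V] [Module ℂ V]
    (T : Module.End ℂ V) (L : Submodule ℤ V) [Module.Finite ℤ L]
    (hT : ∀ x ∈ L, T x ∈ L) (hspan : Submodule.span ℂ (L : Set V) = ⊤)
    {v : V} (hv : v ≠ 0) {a : ℂ} (h : T v = a • v) : IsIntegral ℤ a := by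
  have hTz : ∀ x ∈ L, (T.restrictScalars ℤ) x ∈ L := hT
  obtain ⟨P, hPm, hP⟩ := Algebra.IsIntegral.isIntegral (R := ℤ)
    ((T.restrictScalars ℤ).restrict hTz : Module.End ℤ L)
  refine ⟨P, hPm, ?_⟩
  have hpow : ∀ (n : ℕ) (x : L),
      (((((T.restrictScalars ℤ).restrict hTz : Module.End ℤ L) ^ n) x : L) : V) = (T ^ n) x := by
    intro n
    induction n with
    | zero => intro x; simp
    | succ n ih =>
      intro x
      rw [pow_succ, pow_succ, Module.End.mul_apply, Module.End.mul_apply, ih]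
      rfl
  have key : ∀ (Q : ℤ[X]) (x : L),
      (((aeval ((T.restrictScalars ℤ).restrict hTz : Module.End ℤ L) Q) x : L) : V)
        = (aeval T (Q.map (algebraMap ℤ ℂ))) x := by
    intro Q
    induction Q using Polynomial.induction_on' with
    | add p q hp hq =>
      intro x
      rw [map_add, Polynomial.map_add, map_add, LinearMap.add_apply, LinearMap.add_apply,
        Submodule.coe_add, hp, hq]
    | monomial n c =>
      intro x
      rw [aeval_monomial, Polynomial.map_monomial, aeval_monomial, Module.End.mul_apply,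
        Module.End.mul_apply, Module.algebraMap_end_apply, Module.algebraMap_end_apply,
        Submodule.coe_smul, hpow]
      exact (Int.cast_smul_eq_zsmul ℂ c _).symm
  have hA : aeval T (P.map (algebraMap ℤ ℂ)) = 0 := by
    apply LinearMap.ext_on hspan
    intro x hx
    have := key P ⟨x, hx⟩
    rw [aeval_def, hP] at this
    simpa using this.symm
  have hev : Module.End.HasEigenvector T a v :=
    ⟨Module.End.mem_eigenspace_iff.mpr h, hv⟩
  have h2 := Module.End.aeval_apply_of_hasEigenvector (p := P.map (algebraMap ℤ ℂ)) hev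
  rw [hA, LinearMap.zero_apply] at h2
  rcases smul_eq_zero.mp h2.symm with h3 | h3
  · rwa [eval_map] at h3
  · exact absurd h3 hv

section CT3

variable (M : ℕ) [NeZero M]

/-- the lattice of forms all of whose diamond translates have integer `q`-coefficients. -/
def dsctLZ : AddSubgroup (CuspForm (Gamma1 M) 2) where
  carrier := {h | ∀ (d : (ZMod M)ˣ) (n : ℕ), ∃ z : ℤ, qCoeff (dsDiamond M 2 d h) n = z}
  zero_mem' := by
    intro d n
    refine ⟨0, ?_⟩
    rw [map_zero, dsct_qCoeff_zero, Int.cast_zero]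
  add_mem' := by
    intro a b ha hb d n
    obtain ⟨x, hx⟩ := ha d n
    obtain ⟨y, hy⟩ := hb d n
    refine ⟨x + y, ?_⟩
    rw [map_add, dsct_qCoeff_add, hx, hy, Int.cast_add]
  neg_mem' := by
    intro a ha d n
    obtain ⟨x, hx⟩ := ha d n
    refine ⟨-x, ?_⟩
    rw [map_neg, dsct_qCoeff_neg, hx, Int.cast_neg]

theorem dscti_mem_LZ {h : CuspForm (Gamma1 M) 2} :
    h ∈ dsctLZ M ↔ ∀ (d : (ZMod M)ˣ) (n : ℕ), ∃ z : ℤ, qCoeff (dsDiamond M 2 d h) n = z :=
  Iff.rfl

/-- elements of the lattice have integer coefficients. -/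
theorem dscti_coeff_int {h : CuspForm (Gamma1 M) 2} (hh : h ∈ dsctLZ M) (n : ℕ) :
    ∃ z : ℤ, qCoeff h n = z := by
  obtain ⟨z, hz⟩ := hh 1 n
  refine ⟨z, ?_⟩
  rw [dsDiamond_one] at hz
  exact hz

/-- the Sturm bound in existential form (the only form of R-1 used here). -/
theorem dscti_sturm : ∃ B : ℕ, ∀ f : CuspForm (Gamma1 M) 2,
    (∀ n ≤ B, qCoeff f n = 0) → f = 0 :=
  dsr_sturm M 2

/-- the lattice as a `ℤ`-submodule. -/
def dsctiL : Submodule ℤ (CuspForm (Gamma1 M) 2) := AddSubgroup.toIntSubmodule (dsctLZ M)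

theorem dscti_mem_L {h : CuspForm (Gamma1 M) 2} : h ∈ dsctiL M ↔ h ∈ dsctLZ M := Iff.rfl

instance dscti_finite_L : Module.Finite ℤ (dsctiL M) := by
  obtain ⟨B, hB⟩ := dscti_sturm M
  have hL : ∀ (h : dsctiL M) (n : ℕ),
      ∃ z : ℤ, qCoeff ((h : CuspForm (Gamma1 M) 2) : ℍ → ℂ) n = z :=
    fun h n => dscti_coeff_int M h.2 n
  choose c hc using hL
  let φ₀ : dsctiL M →+ (Fin (B + 1) → ℤ) :=
    { toFun := fun h i => c h i
      map_zero' := by
        funext i
        apply Int.cast_injective (α := ℂ)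
        rw [← hc, Submodule.coe_zero, dsct_qCoeff_zero]
        simp
      map_add' := by
        intro h h'
        funext i
        apply Int.cast_injective (α := ℂ)
        rw [← hc, Submodule.coe_add, dsct_qCoeff_add, hc, hc]
        simp }
  have hinj : Function.Injective φ₀.toIntLinearMap := by
    rw [← LinearMap.ker_eq_bot, LinearMap.ker_eq_bot']
    intro h hh
    apply Subtype.ext
    rw [Submodule.coe_zero]
    apply hB
    intro n hn
    have h1 : c h n = 0 := by
      have := congrFun hh ⟨n, Nat.lt_succ_of_le hn⟩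
      simpa [φ₀] using this
    rw [hc, h1, Int.cast_zero]
  exact Module.Finite.of_injective φ₀.toIntLinearMap hinj

theorem dsctLZ_fg : (dsctLZ M).FG := by
  have h1 : (dsctiL M).FG := Module.Finite.iff_fg.mp inferInstance
  have h2 := (Submodule.fg_iff_addSubgroup_fg (dsctiL M)).mp h1
  rwa [dsctiL, AddSubgroup.toIntSubmodule_toAddSubgroup] at h2

/-- `⟨d⟩⟨e⟩ = ⟨de⟩`, applied form. -/
theorem dscti_diamond_diamond (d e : (ZMod M)ˣ) (h : CuspForm (Gamma1 M) 2) :
    dsDiamond M 2 d (dsDiamond M 2 e h) = dsDiamond M 2 (d * e) h := by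
  rw [dsDiamond_mul]; rfl

theorem dsctLZ_heckeT {p : ℕ} (hp : p.Prime) (hpM : ¬ p ∣ M) {h : CuspForm (Gamma1 M) 2}
    (hh : h ∈ dsctLZ M) : dsHeckeT M 2 hp hpM h ∈ dsctLZ M := by
  intro d n
  rw [← dsct_heckeT_diamond, dsct_qCoeff_heckeT]
  obtain ⟨x, hx⟩ := hh d (p * n)
  have h21 : (p : ℂ) ^ ((2 : ℤ) - 1) = p := by norm_num
  by_cases hpn : p ∣ n
  · obtain ⟨y, hy⟩ := hh (dsctUnit M hp hpM * d) (n / p)
    refine ⟨x + p * y, ?_⟩
    rw [if_pos hpn, dscti_diamond_diamond, hx, hy, h21]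
    push_cast
    ring
  · refine ⟨x, ?_⟩
    rw [if_neg hpn, hx, mul_zero, add_zero]

/-- the lattice is stable under the diamond operators. -/
theorem dsctLZ_diamond (e : (ZMod M)ˣ) {h : CuspForm (Gamma1 M) 2}
    (hh : h ∈ dsctLZ M) : dsDiamond M 2 e h ∈ dsctLZ M := by
  intro d n
  rw [dscti_diamond_diamond]
  exact hh (d * e) n

/-- the diamond translates of a form with integer coefficients have rational coefficients
(`Aut(ℂ)` commutes with the diamonds). -/
theorem dscti_diamond_rational (hM : 3 ≤ M) {h : CuspForm (Gamma1 M) 2}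
    (hh : ∀ n, ∃ z : ℤ, qCoeff h n = z) (d : (ZMod M)ˣ) (n : ℕ) :
    qCoeff (dsDiamond M 2 d h) n ∈ Set.range (algebraMap ℚ ℂ) := by
  by_contra hx
  obtain ⟨σ, hσ⟩ := Fermat.Agent.S23.exists_ringHom_ne hx
  apply hσ
  have h1 : ∀ m, qCoeff h m = σ (qCoeff h m) := by
    intro m
    obtain ⟨z, hz⟩ := hh m
    rw [hz, map_intCast]
  exact (ds_conj_diamond (N := M) (k := 2) hM d h h σ h1 n).symm

theorem dsctLZ_span (hM : 3 ≤ M) :
    Submodule.span ℂ ((dsctLZ M : AddSubgroup (CuspForm (Gamma1 M) 2)) :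
      Set (CuspForm (Gamma1 M) 2)) = ⊤ := by
  rw [eq_top_iff, ← ds_span_integral (N := M) (hN := hM) (k := 2)]
  apply Submodule.span_le.mpr
  intro h hh
  have hbdd : ∀ d : (ZMod M)ˣ,
      Fermat.Agent.S23.IsBddRat (qExpansion 1 (dsDiamond M 2 d h)) := fun d =>
    ds_isBddRat_of_rational (N := M) (hN := hM) (k := 2) _ (dscti_diamond_rational M hM hh d)
  choose D hD0 hD using hbdd
  have hP0 : (∏ d, D d) ≠ 0 := Finset.prod_ne_zero_iff.mpr (fun d _ => hD0 d)
  have hmem : ((∏ d, D d : ℕ) : ℂ) • h ∈ dsctLZ M := by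
    intro d n
    obtain ⟨z, hz⟩ := hD d n
    refine ⟨((∏ e ∈ Finset.univ.erase d, D e : ℕ) : ℤ) * z, ?_⟩
    have h1 : ((∏ d, D d : ℕ) : ℂ) = ((∏ e ∈ Finset.univ.erase d, D e : ℕ) : ℂ) * (D d : ℂ) := by
      rw [← Nat.cast_mul, Finset.prod_erase_mul _ _ (Finset.mem_univ d)]
    have h2 : qCoeff (dsDiamond M 2 d h) n
        = PowerSeries.coeff n (qExpansion 1 (dsDiamond M 2 d h)) := rfl
    rw [map_smul, dsct_qCoeff_smul, h1, mul_assoc, h2, hz]
    push_cast
    ring
  have h3 : h = ((∏ d, D d : ℕ) : ℂ)⁻¹ • (((∏ d, D d : ℕ) : ℂ) • h) := by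
    rw [smul_smul, inv_mul_cancel₀ (by exact_mod_cast hP0), one_smul]
  rw [h3]
  exact Submodule.smul_mem _ _ (Submodule.subset_span hmem)

/-- CT3 main: eigenvalues of `T_p` on `S₂(Γ₁(M))` are algebraic integers. -/
theorem dsct_isIntegral_heckeT (hM : 3 ≤ M) {p : ℕ} (hp : p.Prime) (hpM : ¬ p ∣ M)
    {v : CuspForm (Gamma1 M) 2} (hv : v ≠ 0) {a : ℂ} (h : dsHeckeT M 2 hp hpM v = a • v) :
    IsIntegral ℤ a :=
  dscti_isIntegral_of_lattice (dsHeckeT M 2 hp hpM) (dsctiL M)
    (fun _ hx => dsctLZ_heckeT M hp hpM hx) (dsctLZ_span M hM) hv h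

theorem dscti_diamond_pow (d : (ZMod M)ˣ) (n : ℕ) :
    dsDiamond M 2 (d ^ n) = (dsDiamond M 2 d) ^ n := by
  induction n with
  | zero => rw [pow_zero, pow_zero, dsDiamond_one]; rfl
  | succ n ih => rw [pow_succ, pow_succ, dsDiamond_mul, ih]; rfl

theorem dsct_isIntegral_diamond (d : (ZMod M)ˣ) {v : CuspForm (Gamma1 M) 2} (hv : v ≠ 0) {a : ℂ}
    (h : dsDiamond M 2 d v = a • v) : IsIntegral ℤ a := by
  have hpow : ∀ n : ℕ, ((dsDiamond M 2 d) ^ n) v = a ^ n • v := by
    intro n
    induction n with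
    | zero => simp
    | succ n ih =>
      rw [pow_succ, Module.End.mul_apply, h, map_smul, ih, smul_smul, pow_succ']
  have hcard : d ^ (Fintype.card (ZMod M)ˣ) = 1 := pow_card_eq_one
  have h1 := hpow (Fintype.card (ZMod M)ˣ)
  rw [← dscti_diamond_pow, hcard, dsDiamond_one, LinearMap.id_apply] at h1
  have h2 : a ^ Fintype.card (ZMod M)ˣ = 1 := by
    have h3 : (a ^ Fintype.card (ZMod M)ˣ - 1) • v = 0 := by
      rw [sub_smul, one_smul, ← h1, sub_self]
    rcases smul_eq_zero.mp h3 with h4 | h4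
    · exact sub_eq_zero.mp h4
    · exact absurd h4 hv
  exact IsIntegral.of_pow Fintype.card_pos (h2 ▸ isIntegral_one)

/-- every character of `T` afforded by an eigenvector has integral values. -/
theorem dsct_isIntegral_character (hM : 3 ≤ M) {v : CuspForm (Gamma1 M) 2} (hv : v ≠ 0)
    (χ : dsctT M →+* ℂ)
    (h : ∀ t : dsctT M, (t : Module.End ℂ (CuspForm (Gamma1 M) 2)) v = χ t • v) (t : dsctT M) :
    IsIntegral ℤ (χ t) := by
  have key := dsctT_induction M
    (P := fun x => ∃ c : ℂ, x v = c • v ∧ IsIntegral ℤ c) ?_ ?_ ?_ ?_ ?_ ?_ t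
  · obtain ⟨c, hc, hci⟩ := key
    have h1 : c • v = χ t • v := by rw [← hc, h t]
    have h2 : c = χ t := smul_left_injective ℂ hv h1
    rwa [← h2]
  · intro z
    exact ⟨z, by simp, z.2⟩
  · intro p hp hpM
    have h1 := h (dsctTp M hp hpM)
    exact ⟨_, h1, dsct_isIntegral_heckeT M hM hp hpM hv h1⟩
  · intro d
    have h1 := h (dsctDia M d)
    exact ⟨_, h1, dsct_isIntegral_diamond M d hv h1⟩
  · rintro s t ⟨c, hc, hci⟩ ⟨c', hc', hci'⟩
    exact ⟨c + c', by rw [LinearMap.add_apply, hc, hc', add_smul], hci.add hci'⟩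
  · rintro s ⟨c, hc, hci⟩
    exact ⟨-c, by rw [LinearMap.neg_apply, hc]; exact (neg_smul c v).symm, hci.neg⟩
  · rintro s t ⟨c, hc, hci⟩ ⟨c', hc', hci'⟩
    exact ⟨c' * c, by rw [Module.End.mul_apply, hc', map_smul, hc, smul_smul], hci'.mul hci⟩

end CT3

end Fermat.Agent.DS
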