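import Mathlib
import Fermat.Agent.DS.HO.Adapt
import Fermat.Agent.DS.B.Spec
import Fermat.Agent.DS.Wt1.Spec
import Fermat.Agent.DS.CT.Ideal

/-!
# DS-CT, row CT4: the product `D · f₀ · A₁`, its diamond translates and their `q`-expansions
modulo `Λ`
-/

set_option autoImplicit false
set_option linter.unusedSectionVars false

noncomputable section

namespace Fermat.Agent.DS

open CongruenceSubgroup UpperHalfPlane ModularFormClass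
open scoped MatrixGroups ModularForm

local notation "ℤbar" => integralClosure ℤ ℂ

/-! ### generalities -/

theorem dsct_exists_gamma0' {M : ℕ} [NeZero M] (d : (ZMod M)ˣ) :
    ∃ γ : SL(2, ℤ), γ ∈ Gamma0 M ∧ γ 1 1 = ((d : ZMod M).val : ℤ) := by
  have hcop : Nat.Coprime (d : ZMod M).val M := ZMod.val_coe_unit_coprime d
  have hgcd : IsCoprime ((d : ZMod M).val : ℤ) (M : ℤ) := Nat.isCoprime_iff_coprime.mpr hcop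
  obtain ⟨a, b, hab⟩ := hgcd
  have hdet : (!![a, -b; (M : ℤ), ((d : ZMod M).val : ℤ)]).det = 1 := by
    rw [Matrix.det_fin_two_of]; linarith
  let γ : SL(2, ℤ) := ⟨!![a, -b; (M : ℤ), ((d : ZMod M).val : ℤ)], hdet⟩
  have h10 : γ 1 0 = (M : ℤ) := rfl
  have h11 : γ 1 1 = ((d : ZMod M).val : ℤ) := rfl
  refine ⟨γ, ?_, h11⟩
  rw [Gamma0_mem, h10]
  simp

theorem dsct_Gamma0_of_dvd {M M' : ℕ} (h : M' ∣ M) {γ : SL(2, ℤ)} (hγ : γ ∈ Gamma0 M) :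
    γ ∈ Gamma0 M' := by
  rw [Gamma0_mem] at hγ ⊢
  rw [ZMod.intCast_zmod_eq_zero_iff_dvd] at hγ ⊢
  exact dvd_trans (by exact_mod_cast h) hγ

theorem dsct_not_dvd_gamma0 {l : ℕ} (hl : l.Prime) {γ : SL(2, ℤ)} (hγ : γ ∈ Gamma0 l) :
    ¬ (l : ℤ) ∣ γ 1 1 := by
  have : NeZero l := ⟨hl.ne_zero⟩
  have : Fact (1 < l) := ⟨hl.one_lt⟩
  intro h
  have hu := dsct_isUnit_gamma0 γ hγ
  rw [(ZMod.intCast_zmod_eq_zero_iff_dvd _ _).mpr h] at hu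
  exact not_isUnit_zero hu

/-- values of Dirichlet characters are algebraic integers. -/
theorem dsct_isIntegral_char {N : ℕ} [NeZero N] (ε : DirichletCharacter ℂ N) (a : ZMod N) :
    IsIntegral ℤ (ε a) := by
  by_cases ha : IsUnit a
  · obtain ⟨u, rfl⟩ := ha
    have h1 : ε (u : ZMod N) ^ Fintype.card (ZMod N)ˣ = 1 := by
      rw [← map_pow, ← Units.val_pow_eq_pow_val, pow_card_eq_one, Units.val_one, map_one]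
    refine IsIntegral.of_pow (n := Fintype.card (ZMod N)ˣ) Fintype.card_pos ?_
    rw [h1]
    exact isIntegral_one
  · rw [MulChar.map_nonunit _ ha]
    exact isIntegral_zero

/-- the zeroth coefficient of a cusp form on `Γ₁(N)` vanishes. -/
theorem dsct_qCoeff_cusp_zero {N : ℕ} {k : ℤ} (f : CuspForm (Gamma1 N) k) : qCoeff f 0 = 0 :=
  CuspFormClass.qExpansion_coeff_zero f one_pos (dsct_one_mem_strictPeriods N)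

/-! ### the product forms -/

section

variable {N : ℕ} [NeZero N] {ε : DirichletCharacter ℂ N} (ℓ : ℕ) [NeZero ℓ]

/-- `κ_a = c₀(E_a) / c₀(E_1)`. -/
def dsctKappa (a : ℤ) : ℂ := dsw_pcot ((a : ℂ) / ℓ) / dsw_pcot ((1 : ℂ) / ℓ)

/-- `f₀ · A_a ∈ S₂(Γ₁(N ℓ))`. -/
def dsctProd (f₀ : CuspForm (Gamma1 N) 1) (a : ℤ) : CuspForm (Gamma1 (N * ℓ)) 2 :=
  dsw_mulForm N ℓ f₀ (dsw_A ℓ a)

theorem dsctProd_coe (f₀ : CuspForm (Gamma1 N) 1) (a : ℤ) :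
    (dsctProd ℓ f₀ a : ℍ → ℂ) = (f₀ : ℍ → ℂ) * (dsw_A ℓ a : ℍ → ℂ) := rfl

theorem dsctProd_qCoeff (f₀ : CuspForm (Gamma1 N) 1) (a : ℤ) (n : ℕ) :
    qCoeff (dsctProd ℓ f₀ a) n =
      ∑ ij ∈ Finset.HasAntidiagonal.antidiagonal n, qCoeff f₀ ij.1 * qCoeff (dsw_A ℓ a) ij.2 := by
  obtain ⟨g, hg, hq⟩ := dsw_mul_cusp N ℓ f₀ (dsw_A ℓ a)
  have : g = dsctProd ℓ f₀ a := DFunLike.coe_injective (by rw [hg, dsctProd_coe])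
  rw [← this]
  exact hq n

/-- the diamond action on the product, function level. -/
theorem dsct_product_slash {ℓ : ℕ} [NeZero ℓ] (hℓ : ℓ.Prime) (hℓ2 : ℓ ≠ 2)
    {f₀ : CuspForm (Gamma1 N) 1} (h : DsEigen N ε f₀) (γ : SL(2, ℤ)) (hγ : γ ∈ Gamma0 (N * ℓ)) :
    ((f₀ : ℍ → ℂ) * (dsw_A ℓ 1 : ℍ → ℂ)) ∣[(2 : ℤ)] γ =
      (ε ((γ 1 1 : ℤ) : ZMod N) * dsctKappa ℓ (γ 1 1)) •
        ((f₀ : ℍ → ℂ) * (dsw_A ℓ (γ 1 1) : ℍ → ℂ)) := by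
  have h1 : γ ∈ Gamma0 N := dsct_Gamma0_of_dvd (Dvd.intro _ rfl) hγ
  have h2 : γ ∈ Gamma0 ℓ := dsct_Gamma0_of_dvd (Dvd.intro_left _ rfl) hγ
  have e : ((f₀ : ℍ → ℂ) * (dsw_A ℓ 1 : ℍ → ℂ)) ∣[(2 : ℤ)] γ
      = ((f₀ : ℍ → ℂ) ∣[(1 : ℤ)] γ) * ((dsw_A ℓ 1 : ℍ → ℂ) ∣[(1 : ℤ)] γ) :=
    ModularForm.mul_slash_SL2 1 1 γ _ _
  rw [e, ds_nebentypus h γ h1, dsw_A_slash_Gamma0 ℓ hℓ hℓ2 γ h2]
  unfold dsctKappa
  ext τ
  simp only [Pi.mul_apply, Pi.smul_apply, smul_eq_mul]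
  ring

/-- the diamond action on the product. -/
theorem dsct_diamond_prod {ℓ : ℕ} [NeZero ℓ] (hℓ : ℓ.Prime) (hℓ2 : ℓ ≠ 2)
    {f₀ : CuspForm (Gamma1 N) 1} (h : DsEigen N ε f₀) (d : (ZMod (N * ℓ))ˣ) :
    dsDiamond (N * ℓ) 2 d (dsctProd ℓ f₀ 1) =
      (ε ((((d : ZMod (N * ℓ)).val : ℤ)) : ZMod N) * dsctKappa ℓ ((d : ZMod (N * ℓ)).val : ℤ)) •
        dsctProd ℓ f₀ ((d : ZMod (N * ℓ)).val : ℤ) := by
  obtain ⟨γ, hγ, h11⟩ := dsct_exists_gamma0' d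
  have hd : ((γ 1 1 : ℤ) : ZMod (N * ℓ)) = d := by
    rw [h11]; simp
  apply DFunLike.coe_injective
  rw [dsDiamond_coe (N * ℓ) 2 d _ γ hγ hd, dsctProd_coe, dsct_product_slash hℓ hℓ2 h γ hγ, h11]
  rfl

end

/-! ### arithmetic modulo `Λ` -/

section

variable {ℓ : ℕ} {Λ : Ideal ℤbar}

/-- `Λ ∩ ℤ = ℓ ℤ`. -/
theorem dsct_int_mem (hℓ : ℓ.Prime) (hΛ : Λ.IsMaximal) (hℓΛ : (ℓ : ℤbar) ∈ Λ) (m : ℤ) :
    (m : ℤbar) ∈ Λ ↔ (ℓ : ℤ) ∣ m := by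
  constructor
  · intro hm
    by_contra hnd
    have hcop : IsCoprime m (ℓ : ℤ) := by
      rw [Int.isCoprime_iff_gcd_eq_one]
      have := (Int.prime_iff_natAbs_prime.mpr (by simpa using hℓ)).coprime_iff_not_dvd.mpr hnd
      rw [Int.isCoprime_iff_gcd_eq_one] at this
      rwa [Int.gcd_comm]
    obtain ⟨a, b, hab⟩ := hcop
    apply hΛ.ne_top
    rw [Ideal.eq_top_iff_one]
    have : (1 : ℤbar) = (a : ℤbar) * (m : ℤbar) + (b : ℤbar) * (ℓ : ℤbar) := by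
      have := congrArg (fun z : ℤ => (z : ℤbar)) hab
      simp only [Int.cast_add, Int.cast_mul, Int.cast_one, Int.cast_natCast] at this
      exact this.symm
    rw [this]
    exact Λ.add_mem (Λ.mul_mem_left _ hm) (Λ.mul_mem_left _ hℓΛ)
  · rintro ⟨t, rfl⟩
    push_cast
    exact Λ.mul_mem_right _ hℓΛ

theorem dsct_intCast_in (hℓ : ℓ.Prime) (hΛ : Λ.IsMaximal) (hℓΛ : (ℓ : ℤbar) ∈ Λ) (m : ℤ) :
    DsctIn Λ (m : ℂ) ↔ (ℓ : ℤ) ∣ m := by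
  rw [← dsct_int_mem hℓ hΛ hℓΛ m, ← DsctIn.mem_iff]
  simp

/-- cancellation of an integer prime to `ℓ`. -/
theorem dsct_cancel (hℓ : ℓ.Prime) (hΛ : Λ.IsMaximal) (hℓΛ : (ℓ : ℤbar) ∈ Λ) {m : ℤ}
    (hm : ¬ (ℓ : ℤ) ∣ m) {z : ℂ} (hz : IsIntegral ℤ z) (h : DsctIn Λ ((m : ℂ) * z)) :
    DsctIn Λ z := by
  have hprime : Λ.IsPrime := hΛ.isPrime
  obtain ⟨x, hx, hxe⟩ := h
  have hx' : x = (m : ℤbar) * ⟨z, hz⟩ := Subtype.ext (by rw [hxe]; push_cast; rfl)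
  rw [hx'] at hx
  rcases hprime.mem_or_mem hx with h1 | h1
  · exact absurd ((dsct_int_mem hℓ hΛ hℓΛ m).mp h1) hm
  · exact ⟨⟨z, hz⟩, h1, rfl⟩

variable [NeZero ℓ]

theorem dsctKappa_isIntegral (hℓ : ℓ.Prime) (hℓ2 : ℓ ≠ 2) {a : ℤ} (ha : ¬ (ℓ : ℤ) ∣ a) :
    IsIntegral ℤ (dsctKappa ℓ a) := (dsw_kappa ℓ hℓ hℓ2 a ha).1

/-- `a κ_a ≡ 1 (mod Λ)`. -/
theorem dsctKappa_mul (hℓ : ℓ.Prime) (hℓ2 : ℓ ≠ 2) (hΛ : Λ.IsMaximal) (hℓΛ : (ℓ : ℤbar) ∈ Λ)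
    {a : ℤ} (ha : ¬ (ℓ : ℤ) ∣ a) : DsctIn Λ ((a : ℂ) * dsctKappa ℓ a - 1) := by
  have hprime : Λ.IsPrime := hΛ.isPrime
  obtain ⟨b, hb, hb2⟩ := (dsw_kappa ℓ hℓ hℓ2 a ha).2
  obtain ⟨x, hx, hxe⟩ := dsw_one_sub_zeta_mem ℓ hℓ Λ hℓΛ
  have : (a : ℂ) * dsctKappa ℓ a - 1 = (1 - dsw_zeta ℓ) * b := by
    unfold dsctKappa
    rw [hb2]; ring
  rw [this, ← hxe]
  exact (DsctIn.of_mem hx).mul_right hb

/-- the basic congruence between the `κ`'s: `a ≡ c b (mod ℓ)` gives `c κ_a ≡ κ_b`. -/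
theorem dsctKappa_congr (hℓ : ℓ.Prime) (hℓ2 : ℓ ≠ 2) (hΛ : Λ.IsMaximal) (hℓΛ : (ℓ : ℤbar) ∈ Λ)
    {a b c : ℤ} (ha : ¬ (ℓ : ℤ) ∣ a) (hb : ¬ (ℓ : ℤ) ∣ b) (habc : (ℓ : ℤ) ∣ a - c * b) :
    DsctIn Λ ((c : ℂ) * dsctKappa ℓ a - dsctKappa ℓ b) := by
  have hKa := dsctKappa_isIntegral hℓ hℓ2 ha
  have hKb := dsctKappa_isIntegral hℓ hℓ2 hb
  have hint : IsIntegral ℤ ((c : ℂ) * dsctKappa ℓ a - dsctKappa ℓ b) :=
    (isIntegral_algebraMap.mul hKa).sub hKb |> fun h => by simpa using h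
  refine dsct_cancel hℓ hΛ hℓΛ hb hint ?_
  -- b (c κ_a - κ_b) = (c b - a) κ_a + (a κ_a - 1) - (b κ_b - 1)
  have e : (b : ℂ) * ((c : ℂ) * dsctKappa ℓ a - dsctKappa ℓ b)
      = ((c * b - a : ℤ) : ℂ) * dsctKappa ℓ a + ((a : ℂ) * dsctKappa ℓ a - 1)
        - ((b : ℂ) * dsctKappa ℓ b - 1) := by
    push_cast; ring
  rw [e]
  have h1 : DsctIn Λ (((c * b - a : ℤ) : ℂ)) := by
    rw [dsct_intCast_in hℓ hΛ hℓΛ]
    have : c * b - a = -(a - c * b) := by ring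
    rw [this]
    exact (dvd_neg).mpr habc
  exact ((h1.mul_right hKa).add (dsctKappa_mul hℓ hℓ2 hΛ hℓΛ ha)).sub
    (dsctKappa_mul hℓ hℓ2 hΛ hℓΛ hb)

/-- `a ≡ b c (mod ℓ)` gives `κ_a ≡ κ_b κ_c`. -/
theorem dsctKappa_congr_mul (hℓ : ℓ.Prime) (hℓ2 : ℓ ≠ 2) (hΛ : Λ.IsMaximal)
    (hℓΛ : (ℓ : ℤbar) ∈ Λ) {a b c : ℤ} (ha : ¬ (ℓ : ℤ) ∣ a) (hb : ¬ (ℓ : ℤ) ∣ b)
    (hc : ¬ (ℓ : ℤ) ∣ c) (habc : (ℓ : ℤ) ∣ a - b * c) :
    DsctIn Λ (dsctKappa ℓ a - dsctKappa ℓ b * dsctKappa ℓ c) := by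
  have hKa := dsctKappa_isIntegral hℓ hℓ2 ha
  have hKb := dsctKappa_isIntegral hℓ hℓ2 hb
  have hKc := dsctKappa_isIntegral hℓ hℓ2 hc
  have hbc : ¬ (ℓ : ℤ) ∣ b * c := by
    intro h
    rcases (Int.prime_iff_natAbs_prime.mpr (by simpa using hℓ)).dvd_or_dvd h with h | h
    · exact hb h
    · exact hc h
  refine dsct_cancel hℓ hΛ hℓΛ hbc (hKa.sub (hKb.mul hKc)) ?_
  have e : ((b * c : ℤ) : ℂ) * (dsctKappa ℓ a - dsctKappa ℓ b * dsctKappa ℓ c)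
      = ((b * c - a : ℤ) : ℂ) * dsctKappa ℓ a + ((a : ℂ) * dsctKappa ℓ a - 1)
        - ((b : ℂ) * dsctKappa ℓ b - 1) * ((c : ℂ) * dsctKappa ℓ c)
        - ((c : ℂ) * dsctKappa ℓ c - 1) := by
    push_cast; ring
  rw [e]
  have h1 : DsctIn Λ (((b * c - a : ℤ) : ℂ)) := by
    rw [dsct_intCast_in hℓ hΛ hℓΛ]
    have : b * c - a = -(a - b * c) := by ring
    rw [this]
    exact (dvd_neg).mpr habc
  have hcK : IsIntegral ℤ ((c : ℂ) * dsctKappa ℓ c) := by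
    have : IsIntegral ℤ ((c : ℤ) : ℂ) := isIntegral_algebraMap
    exact this.mul hKc
  exact (((h1.mul_right hKa).add (dsctKappa_mul hℓ hℓ2 hΛ hℓΛ ha)).sub
    ((dsctKappa_mul hℓ hℓ2 hΛ hℓΛ hb).mul_right hcK)).sub (dsctKappa_mul hℓ hℓ2 hΛ hℓΛ hc)

end

/-! ### the units of `ZMod (N ℓ)` and their integer representatives -/

section

variable {N : ℕ} [NeZero N] {ℓ : ℕ} [NeZero ℓ]

/-- the standard integer representative of a unit mod `N ℓ`. -/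
def dsctV (d : (ZMod (N * ℓ))ˣ) : ℤ := ((d : ZMod (N * ℓ)).val : ℤ)

theorem dsctV_cast (d : (ZMod (N * ℓ))ˣ) : ((dsctV d : ℤ) : ZMod (N * ℓ)) = d := by
  simp [dsctV]

theorem dsctV_mul (d e : (ZMod (N * ℓ))ˣ) :
    ((N * ℓ : ℕ) : ℤ) ∣ dsctV (d * e) - dsctV d * dsctV e := by
  rw [← ZMod.intCast_zmod_eq_zero_iff_dvd]
  push_cast
  rw [dsctV_cast, dsctV_cast, dsctV_cast, Units.val_mul, sub_self]

theorem dsctV_unit {p : ℕ} (hp : p.Prime) (hpM : ¬ p ∣ N * ℓ) :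
    ((N * ℓ : ℕ) : ℤ) ∣ dsctV (dsctUnit (N * ℓ) hp hpM) - (p : ℤ) := by
  rw [← ZMod.intCast_zmod_eq_zero_iff_dvd]
  push_cast
  rw [dsctV_cast, dsctUnit_coe, sub_self]

theorem dsctV_not_dvd (hℓ : ℓ.Prime) (d : (ZMod (N * ℓ))ˣ) : ¬ (ℓ : ℤ) ∣ dsctV d := by
  intro h
  have hcop : Nat.Coprime (d : ZMod (N * ℓ)).val (N * ℓ) := ZMod.val_coe_unit_coprime d
  have h' : ℓ ∣ (d : ZMod (N * ℓ)).val := by
    unfold dsctV at h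
    exact_mod_cast h
  have : ℓ ∣ 1 := by
    have := Nat.dvd_gcd h' (Dvd.intro_left N rfl)
    rwa [hcop] at this
  exact hℓ.one_lt.ne' (Nat.dvd_one.mp this)

theorem dsct_dvd_of_mul_left {a : ℤ} (h : ((N * ℓ : ℕ) : ℤ) ∣ a) : (N : ℤ) ∣ a :=
  dvd_trans (by push_cast; exact Dvd.intro _ rfl) h

theorem dsct_dvd_of_mul_right {a : ℤ} (h : ((N * ℓ : ℕ) : ℤ) ∣ a) : (ℓ : ℤ) ∣ a :=
  dvd_trans (by push_cast; exact Dvd.intro_left _ rfl) h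

variable (ε : DirichletCharacter ℂ N)

/-- `ε` on the units mod `N ℓ`. -/
def dsctE (d : (ZMod (N * ℓ))ˣ) : ℂ := ε ((dsctV d : ℤ) : ZMod N)

theorem dsctE_congr {a b : ℤ} (h : (N : ℤ) ∣ a - b) : ε ((a : ℤ) : ZMod N) = ε ((b : ℤ) : ZMod N) := by
  have : ((a : ℤ) : ZMod N) = ((b : ℤ) : ZMod N) := by
    rw [← sub_eq_zero, ← Int.cast_sub, ZMod.intCast_zmod_eq_zero_iff_dvd]
    exact h
  rw [this]

theorem dsctE_mul (d e : (ZMod (N * ℓ))ˣ) : dsctE ε (d * e) = dsctE ε d * dsctE ε e := by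
  unfold dsctE
  rw [dsctE_congr ε (dsct_dvd_of_mul_left (dsctV_mul d e)), Int.cast_mul, map_mul]

theorem dsctE_unit {p : ℕ} (hp : p.Prime) (hpM : ¬ p ∣ N * ℓ) :
    dsctE ε (dsctUnit (N * ℓ) hp hpM) = ε (p : ZMod N) := by
  unfold dsctE
  rw [dsctE_congr ε (dsct_dvd_of_mul_left (dsctV_unit hp hpM))]
  simp

theorem dsctE_isIntegral (d : (ZMod (N * ℓ))ˣ) : IsIntegral ℤ (dsctE ε d) :=
  dsct_isIntegral_char ε _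

end

/-! ### the form `g₀ = D f₀ A₁` -/

section

variable {N : ℕ} [NeZero N] {ε : DirichletCharacter ℂ N} {f₀ : CuspForm (Gamma1 N) 1}
  {ℓ : ℕ} [NeZero ℓ] {Λ : Ideal ℤbar}

theorem dsct_sum_antidiagonal_ite (F : ℕ → ℂ) (n : ℕ) :
    ∑ ij ∈ Finset.HasAntidiagonal.antidiagonal n, F ij.1 * (if ij.2 = 0 then 1 else 0) = F n := by
  rw [Finset.sum_eq_single (n, 0)]
  · simp
  · rintro ⟨i, j⟩ hij hne
    rw [Finset.HasAntidiagonal.mem_antidiagonal] at hij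
    have : j ≠ 0 := by
      rintro rfl
      apply hne
      simp only [add_zero] at hij
      rw [hij]
    simp [this]
  · intro h
    exact absurd (Finset.HasAntidiagonal.mem_antidiagonal.mpr (by simp)) h

/-- `g₀ = D · f₀ · A₁`. -/
def dsctG0 (ℓ : ℕ) [NeZero ℓ] (f₀ : CuspForm (Gamma1 N) 1) (D : ℕ) : CuspForm (Gamma1 (N * ℓ)) 2 :=
  (D : ℂ) • dsctProd ℓ f₀ 1

/-- the `q`-expansion of the diamond translates of `g₀`. -/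
theorem dsctG0_diamond_qCoeff (hℓ : ℓ.Prime) (hℓ2 : ℓ ≠ 2) (h : DsEigen N ε f₀) (D : ℕ)
    (d : (ZMod (N * ℓ))ˣ) (n : ℕ) :
    qCoeff (dsDiamond (N * ℓ) 2 d (dsctG0 ℓ f₀ D)) n =
      dsctE ε d * dsctKappa ℓ (dsctV d) *
        ∑ ij ∈ Finset.HasAntidiagonal.antidiagonal n,
          ((D : ℂ) * qCoeff f₀ ij.1) * qCoeff (dsw_A ℓ (dsctV d)) ij.2 := by
  unfold dsctG0
  rw [map_smul, dsct_diamond_prod hℓ hℓ2 h d, dsct_qCoeff_smul, dsct_qCoeff_smul, dsctProd_qCoeff,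
    Finset.mul_sum, Finset.mul_sum, Finset.mul_sum]
  refine Finset.sum_congr rfl fun ij _ => ?_
  unfold dsctE dsctV
  ring

/-- the main congruence: `a_n(⟨d⟩ g₀) ≡ ε(d) κ_d · D a_n(f₀)`. -/
theorem dsctG0_congr (hℓ : ℓ.Prime) (hℓ2 : ℓ ≠ 2) (h : DsEigen N ε f₀) (D : ℕ)
    (hint : ∀ n, IsIntegral ℤ ((D : ℂ) * qCoeff f₀ n)) (hΛ : Λ.IsMaximal) (hℓΛ : (ℓ : ℤbar) ∈ Λ)
    (d : (ZMod (N * ℓ))ˣ) (n : ℕ) :
    DsctIn Λ (qCoeff (dsDiamond (N * ℓ) 2 d (dsctG0 ℓ f₀ D)) n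
      - dsctE ε d * dsctKappa ℓ (dsctV d) * ((D : ℂ) * qCoeff f₀ n)) := by
  have hprime : Λ.IsPrime := hΛ.isPrime
  have hd : ¬ (ℓ : ℤ) ∣ dsctV d := dsctV_not_dvd hℓ d
  rw [dsctG0_diamond_qCoeff hℓ hℓ2 h D d n]
  have e : dsctE ε d * dsctKappa ℓ (dsctV d) *
        ∑ ij ∈ Finset.HasAntidiagonal.antidiagonal n,
          ((D : ℂ) * qCoeff f₀ ij.1) * qCoeff (dsw_A ℓ (dsctV d)) ij.2
      - dsctE ε d * dsctKappa ℓ (dsctV d) * ((D : ℂ) * qCoeff f₀ n)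
      = dsctE ε d * dsctKappa ℓ (dsctV d) *
        ∑ ij ∈ Finset.HasAntidiagonal.antidiagonal n,
          ((D : ℂ) * qCoeff f₀ ij.1) *
            (qCoeff (dsw_A ℓ (dsctV d)) ij.2 - (if ij.2 = 0 then 1 else 0)) := by
    rw [← mul_sub]
    congr 1
    rw [← dsct_sum_antidiagonal_ite (fun i => (D : ℂ) * qCoeff f₀ i) n, ← Finset.sum_sub_distrib]
    refine Finset.sum_congr rfl fun ij _ => ?_
    ring
  rw [e]
  refine DsctIn.mul_left ?_ ((dsctE_isIntegral ε d).mul (dsctKappa_isIntegral hℓ hℓ2 hd))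
  refine DsctIn.sum _ _ fun ij _ => ?_
  refine DsctIn.mul_left ?_ (hint ij.1)
  by_cases h0 : ij.2 = 0
  · rw [h0, if_pos rfl, dsw_A_qCoeff_zero ℓ hℓ hℓ2 _ hd, sub_self]
    exact DsctIn.zero
  · rw [if_neg h0, sub_zero]
    exact dsw_A_qCoeff_mem ℓ hℓ hℓ2 _ hd Λ hℓΛ ij.2 h0

theorem dsctG0_isIntegral (hℓ : ℓ.Prime) (hℓ2 : ℓ ≠ 2) (h : DsEigen N ε f₀) (D : ℕ)
    (hint : ∀ n, IsIntegral ℤ ((D : ℂ) * qCoeff f₀ n)) (hΛ : Λ.IsMaximal) (hℓΛ : (ℓ : ℤbar) ∈ Λ)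
    (d : (ZMod (N * ℓ))ˣ) (n : ℕ) :
    IsIntegral ℤ (qCoeff (dsDiamond (N * ℓ) 2 d (dsctG0 ℓ f₀ D)) n) := by
  have h1 := (dsctG0_congr hℓ hℓ2 h D hint hΛ hℓΛ d n).isIntegral
  have h2 : IsIntegral ℤ (dsctE ε d * dsctKappa ℓ (dsctV d) * ((D : ℂ) * qCoeff f₀ n)) :=
    ((dsctE_isIntegral ε d).mul (dsctKappa_isIntegral hℓ hℓ2 (dsctV_not_dvd hℓ d))).mul (hint n)
  have := h1.add h2
  simpa using this

/-- `a_1(g₀) = D`. -/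
theorem dsctG0_qCoeff_one (hℓ : ℓ.Prime) (hℓ2 : ℓ ≠ 2) (h : DsEigen N ε f₀) (D : ℕ) :
    qCoeff (dsctG0 ℓ f₀ D) 1 = D := by
  have h1 : ¬ (ℓ : ℤ) ∣ 1 := by
    intro h
    have := Int.eq_one_of_dvd_one (by positivity) h
    have : ℓ = 1 := by exact_mod_cast this
    exact hℓ.one_lt.ne' this
  unfold dsctG0
  rw [dsct_qCoeff_smul, dsctProd_qCoeff]
  have : Finset.HasAntidiagonal.antidiagonal 1 = {((0 : ℕ), (1 : ℕ)), ((1 : ℕ), (0 : ℕ))} := by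
    decide
  rw [this, Finset.sum_pair (by decide)]
  simp only
  rw [dsct_qCoeff_cusp_zero, h.one, dsw_A_qCoeff_zero ℓ hℓ hℓ2 1 h1]
  ring

theorem dsct_not_dvd_one (hℓ : ℓ.Prime) : ¬ (ℓ : ℤ) ∣ 1 := by
  intro h
  have := Int.eq_one_of_dvd_one (by positivity) h
  have : ℓ = 1 := by exact_mod_cast this
  exact hℓ.one_lt.ne' this

theorem dsctKappa_one (hℓ : ℓ.Prime) (hℓ2 : ℓ ≠ 2) : dsctKappa ℓ 1 = 1 := by
  unfold dsctKappa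
  have := dsw_pcot_torsion_ne_zero ℓ hℓ hℓ2 1 (dsct_not_dvd_one hℓ)
  simp only [Int.cast_one] at this ⊢
  exact div_self this

/-- P3: `g₀` is an eigenvector of `T_p` modulo `L⁺` with eigenvalue `a_p(f₀)`. -/
theorem dsctG0_hecke (hℓ : ℓ.Prime) (hℓ2 : ℓ ≠ 2) (h : DsEigen N ε f₀) (D : ℕ)
    (hint : ∀ n, IsIntegral ℤ ((D : ℂ) * qCoeff f₀ n)) (hΛ : Λ.IsMaximal) (hℓΛ : (ℓ : ℤbar) ∈ Λ)
    {p : ℕ} (hp : p.Prime) (hpM : ¬ p ∣ N * ℓ) (d : (ZMod (N * ℓ))ˣ) (n : ℕ) :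
    DsctIn Λ (qCoeff (dsDiamond (N * ℓ) 2 d (dsctG0 ℓ f₀ D)) (p * n)
      + (p : ℂ) * (if p ∣ n then
          qCoeff (dsDiamond (N * ℓ) 2 (dsctUnit (N * ℓ) hp hpM * d) (dsctG0 ℓ f₀ D)) (n / p)
            else 0)
      - qCoeff f₀ p * qCoeff (dsDiamond (N * ℓ) 2 d (dsctG0 ℓ f₀ D)) n) := by
  have hpN : ¬ p ∣ N := fun hd => hpM (Dvd.dvd.mul_right hd ℓ)
  have hap : IsIntegral ℤ (qCoeff f₀ p) := ds_isIntegral h hp hpN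
  have hpI : IsIntegral ℤ ((p : ℕ) : ℂ) := by
    have : IsIntegral ℤ (((p : ℤ)) : ℂ) := isIntegral_algebraMap
    simpa using this
  set u := dsctUnit (N * ℓ) hp hpM with hu
  have hX := fun (d : (ZMod (N * ℓ))ˣ) (m : ℕ) => dsctG0_congr hℓ hℓ2 h D hint hΛ hℓΛ d m
  have hhecke := h.hecke p hp hpN n
  -- `p κ_{ud} ≡ κ_d`
  have hK : DsctIn Λ ((p : ℂ) * dsctKappa ℓ (dsctV (u * d)) - dsctKappa ℓ (dsctV d)) := by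
    have hdvd : (ℓ : ℤ) ∣ dsctV (u * d) - (p : ℤ) * dsctV d := by
      have h1 := dsct_dvd_of_mul_right (dsctV_mul u d)
      have h2 := dsct_dvd_of_mul_right (dsctV_unit hp hpM)
      have : dsctV (u * d) - (p : ℤ) * dsctV d
          = (dsctV (u * d) - dsctV u * dsctV d) + (dsctV u - (p : ℤ)) * dsctV d := by ring
      rw [this]
      exact dvd_add h1 (Dvd.dvd.mul_right h2 _)
    have := dsctKappa_congr hℓ hℓ2 hΛ hℓΛ (dsctV_not_dvd hℓ (u * d)) (dsctV_not_dvd hℓ d) hdvd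
    simpa using this
  have hEu : dsctE ε (u * d) = ε (p : ZMod N) * dsctE ε d := by
    rw [dsctE_mul, hu, dsctE_unit]
  have hEd := dsctE_isIntegral ε d
  have hεp : IsIntegral ℤ (ε (p : ZMod N)) := dsct_isIntegral_char ε _
  by_cases hpn : p ∣ n
  · rw [if_pos hpn] at hhecke ⊢
    have e : qCoeff (dsDiamond (N * ℓ) 2 d (dsctG0 ℓ f₀ D)) (p * n)
        + (p : ℂ) * qCoeff (dsDiamond (N * ℓ) 2 (u * d) (dsctG0 ℓ f₀ D)) (n / p)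
        - qCoeff f₀ p * qCoeff (dsDiamond (N * ℓ) 2 d (dsctG0 ℓ f₀ D)) n
      = (qCoeff (dsDiamond (N * ℓ) 2 d (dsctG0 ℓ f₀ D)) (p * n)
          - dsctE ε d * dsctKappa ℓ (dsctV d) * ((D : ℂ) * qCoeff f₀ (p * n)))
        + (p : ℂ) * (qCoeff (dsDiamond (N * ℓ) 2 (u * d) (dsctG0 ℓ f₀ D)) (n / p)
          - dsctE ε (u * d) * dsctKappa ℓ (dsctV (u * d)) * ((D : ℂ) * qCoeff f₀ (n / p)))
        - qCoeff f₀ p * (qCoeff (dsDiamond (N * ℓ) 2 d (dsctG0 ℓ f₀ D)) n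
          - dsctE ε d * dsctKappa ℓ (dsctV d) * ((D : ℂ) * qCoeff f₀ n))
        + (ε (p : ZMod N) * dsctE ε d * ((D : ℂ) * qCoeff f₀ (n / p))) *
          ((p : ℂ) * dsctKappa ℓ (dsctV (u * d)) - dsctKappa ℓ (dsctV d)) := by
      rw [hEu]
      linear_combination (dsctE ε d * dsctKappa ℓ (dsctV d) * (D : ℂ)) * hhecke
    rw [e]
    exact (((hX d (p * n)).add ((hX (u * d) (n / p)).mul_left hpI)).sub
      ((hX d n).mul_left hap)).add (hK.mul_left ((hεp.mul hEd).mul (hint (n / p))))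
  · rw [if_neg hpn] at hhecke ⊢
    have e : qCoeff (dsDiamond (N * ℓ) 2 d (dsctG0 ℓ f₀ D)) (p * n)
        + (p : ℂ) * 0
        - qCoeff f₀ p * qCoeff (dsDiamond (N * ℓ) 2 d (dsctG0 ℓ f₀ D)) n
      = (qCoeff (dsDiamond (N * ℓ) 2 d (dsctG0 ℓ f₀ D)) (p * n)
          - dsctE ε d * dsctKappa ℓ (dsctV d) * ((D : ℂ) * qCoeff f₀ (p * n)))
        - qCoeff f₀ p * (qCoeff (dsDiamond (N * ℓ) 2 d (dsctG0 ℓ f₀ D)) n
          - dsctE ε d * dsctKappa ℓ (dsctV d) * ((D : ℂ) * qCoeff f₀ n)) := by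
      linear_combination (dsctE ε d * dsctKappa ℓ (dsctV d) * (D : ℂ)) * hhecke
    rw [e]
    exact (hX d (p * n)).sub ((hX d n).mul_left hap)

/-- P4: `g₀` is an eigenvector of `⟨e⟩` modulo `L⁺` with eigenvalue `ε(e) κ_e`. -/
theorem dsctG0_diamond (hℓ : ℓ.Prime) (hℓ2 : ℓ ≠ 2) (h : DsEigen N ε f₀) (D : ℕ)
    (hint : ∀ n, IsIntegral ℤ ((D : ℂ) * qCoeff f₀ n)) (hΛ : Λ.IsMaximal) (hℓΛ : (ℓ : ℤbar) ∈ Λ)
    (e d : (ZMod (N * ℓ))ˣ) (n : ℕ) :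
    DsctIn Λ (qCoeff (dsDiamond (N * ℓ) 2 (d * e) (dsctG0 ℓ f₀ D)) n
      - (dsctE ε e * dsctKappa ℓ (dsctV e)) * qCoeff (dsDiamond (N * ℓ) 2 d (dsctG0 ℓ f₀ D)) n) := by
  have hX := fun (d : (ZMod (N * ℓ))ˣ) (m : ℕ) => dsctG0_congr hℓ hℓ2 h D hint hΛ hℓΛ d m
  have hK := dsctKappa_congr_mul hℓ hℓ2 hΛ hℓΛ (dsctV_not_dvd hℓ (d * e)) (dsctV_not_dvd hℓ d)
    (dsctV_not_dvd hℓ e) (dsct_dvd_of_mul_right (dsctV_mul d e))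
  have hEd := dsctE_isIntegral ε d
  have hEe := dsctE_isIntegral ε e
  have hKe := dsctKappa_isIntegral hℓ hℓ2 (dsctV_not_dvd hℓ e)
  have e1 : qCoeff (dsDiamond (N * ℓ) 2 (d * e) (dsctG0 ℓ f₀ D)) n
      - (dsctE ε e * dsctKappa ℓ (dsctV e)) * qCoeff (dsDiamond (N * ℓ) 2 d (dsctG0 ℓ f₀ D)) n
    = (qCoeff (dsDiamond (N * ℓ) 2 (d * e) (dsctG0 ℓ f₀ D)) n
        - dsctE ε (d * e) * dsctKappa ℓ (dsctV (d * e)) * ((D : ℂ) * qCoeff f₀ n))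
      - (dsctE ε e * dsctKappa ℓ (dsctV e)) * (qCoeff (dsDiamond (N * ℓ) 2 d (dsctG0 ℓ f₀ D)) n
        - dsctE ε d * dsctKappa ℓ (dsctV d) * ((D : ℂ) * qCoeff f₀ n))
      + (dsctE ε d * dsctE ε e * ((D : ℂ) * qCoeff f₀ n)) *
        (dsctKappa ℓ (dsctV (d * e)) - dsctKappa ℓ (dsctV d) * dsctKappa ℓ (dsctV e)) := by
    rw [dsctE_mul]
    ring
  rw [e1]
  exact ((hX (d * e) n).sub ((hX d n).mul_left (hEe.mul hKe))).add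
    (hK.mul_left ((hEd.mul hEe).mul (hint n)))

/-- P5: `p · (ε(p) κ_p) ≡ ε(p)`. -/
theorem dsct_p_mul_w (hℓ : ℓ.Prime) (hℓ2 : ℓ ≠ 2) (hΛ : Λ.IsMaximal) (hℓΛ : (ℓ : ℤbar) ∈ Λ)
    (ε : DirichletCharacter ℂ N) {p : ℕ} (hp : p.Prime) (hpM : ¬ p ∣ N * ℓ) :
    DsctIn Λ ((p : ℂ) * (dsctE ε (dsctUnit (N * ℓ) hp hpM) *
      dsctKappa ℓ (dsctV (dsctUnit (N * ℓ) hp hpM))) - ε (p : ZMod N)) := by
  have hK := dsctKappa_congr hℓ hℓ2 hΛ hℓΛ (a := dsctV (dsctUnit (N * ℓ) hp hpM)) (b := 1)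
    (c := (p : ℤ)) (dsctV_not_dvd hℓ _) (dsct_not_dvd_one hℓ)
    (by simpa using dsct_dvd_of_mul_right (dsctV_unit hp hpM))
  rw [dsctKappa_one hℓ hℓ2] at hK
  rw [dsctE_unit]
  have e : (p : ℂ) * (ε (p : ZMod N) * dsctKappa ℓ (dsctV (dsctUnit (N * ℓ) hp hpM)))
      - ε (p : ZMod N)
      = ε (p : ZMod N) * (((p : ℤ) : ℂ) * dsctKappa ℓ (dsctV (dsctUnit (N * ℓ) hp hpM)) - 1) := by
    push_cast; ring
  rw [e]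
  exact hK.mul_left (dsct_isIntegral_char ε _)

end

end Fermat.Agent.DS
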