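import Mathlib
import Fermat.Prelude.Def_GaloisRep_Residual
import Fermat.Prelude.Def_FLTPrelim_Ramification
import Fermat.Agent.DS.HO.Adapt
import Fermat.Agent.DS.R.Main
import Fermat.Agent.DS.B.Spec
import Fermat.Agent.DS.Wt1.Spec
import Fermat.Agent.S41.ASM.Lift
import Fermat.Agent.DS.CT.Product
import Fermat.Agent.DS.CT.Integral

/-!
# DS-CT, row CT6: assembly — the mod `Λ` representations attached to a weight one eigenform
-/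

set_option autoImplicit false
set_option linter.unusedSectionVars false

noncomputable section

namespace Fermat.Agent.DS

open CongruenceSubgroup UpperHalfPlane ModularFormClass Polynomial
open scoped MatrixGroups ModularForm

local notation "Γℚ" => (AlgebraicClosure ℚ ≃ₐ[ℚ] AlgebraicClosure ℚ)
local notation "ℤbar" => integralClosure ℤ ℂ

/-- **BB1** (the contract of the (C) port). -/
def DsBB1 : Prop :=
  ∀ (M : ℕ) [NeZero M], 7 ≤ M →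
    ∀ (g : CuspForm (Gamma1 M) 2) (ψ : DirichletCharacter ℂ M) (b : ℕ → ℂ),
    g ≠ 0 →
    (∀ γ : SL(2, ℤ), γ ∈ Gamma0 M →
      (g : ℍ → ℂ) ∣[(2 : ℤ)] γ = ψ ((γ 1 1 : ℤ) : ZMod M) • (g : ℍ → ℂ)) →
    (∀ p : ℕ, p.Prime → ¬ p ∣ M → ∀ n : ℕ,
      qCoeff g (p * n) + (p : ℂ) * ψ (p : ZMod M) * (if p ∣ n then qCoeff g (n / p) else 0)
        = b p * qCoeff g n) →
    ∀ (ℓ : ℕ), ℓ.Prime → ∀ (k : Type) [Field k] [CharP k ℓ] (φ : ℤbar →+* k),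
      ∃ ρ : ResidualGaloisRep k,
        (∀ p : ℕ, p.Prime → ¬ p ∣ M * ℓ → ρ.IsUnramifiedAt p) ∧
        ∀ p : ℕ, p.Prime → ¬ p ∣ M * ℓ →
          ∀ A : ValuationSubring (AlgebraicClosure ℚ), A.LiesOverPrime p →
            ∀ σ : Γℚ, A.IsFrobeniusAt σ p →
              ∃ x y : ℤbar, (x : ℂ) = b p ∧ (y : ℂ) = (p : ℂ) * ψ (p : ZMod M) ∧
                LinearMap.charpoly (ρ.ρ σ) = X ^ 2 - C (φ x) * X + C (φ y)

/-! ### the character afforded by an eigenvector -/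

section

variable {M : ℕ} [NeZero M]

theorem dsctDia_mul (d e : (ZMod M)ˣ) : dsctDia M (d * e) = dsctDia M d * dsctDia M e := by
  apply Subtype.ext
  show dsDiamond M 2 (d * e) = dsDiamond M 2 d * dsDiamond M 2 e
  rw [dsDiamond_mul]; rfl

theorem dsctDia_one : dsctDia M 1 = 1 := by
  apply Subtype.ext
  show dsDiamond M 2 1 = 1
  rw [dsDiamond_one]; rfl

/-- the nebentypus of an eigencharacter of `T`, as a homomorphism on units. -/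
def dsctPsiHom (χ : dsctT M →+* ℂ) : (ZMod M)ˣ →* ℂˣ :=
  (Units.map (χ : dsctT M →* ℂ)).comp
    { toFun := fun d => ⟨dsctDia M d, dsctDia M d⁻¹, by rw [← dsctDia_mul, mul_inv_cancel, dsctDia_one],
        by rw [← dsctDia_mul, inv_mul_cancel, dsctDia_one]⟩
      map_one' := Units.ext dsctDia_one
      map_mul' := fun d e => Units.ext (dsctDia_mul d e) }

/-- the nebentypus of an eigencharacter of `T`, as a Dirichlet character. -/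
def dsctPsi (χ : dsctT M →+* ℂ) : DirichletCharacter ℂ M := MulChar.ofUnitHom (dsctPsiHom χ)

theorem dsctPsi_coe (χ : dsctT M →+* ℂ) (d : (ZMod M)ˣ) :
    dsctPsi χ (d : ZMod M) = χ (dsctDia M d) := by
  unfold dsctPsi
  rw [MulChar.ofUnitHom_coe]
  rfl

end

/-! ### CT6a -/

/-- CT6a (the lifting lemma applied). -/
theorem dsct_exists_eigenvector {N : ℕ} [NeZero N] {ε : DirichletCharacter ℂ N}
    {f₀ : CuspForm (Gamma1 N) 1} (h : DsEigen N ε f₀) (D : ℕ)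
    (hint : ∀ n, IsIntegral ℤ ((D : ℂ) * qCoeff f₀ n))
    {ℓ : ℕ} [NeZero ℓ] (hℓ : ℓ.Prime) (hℓN : ¬ ℓ ∣ 2 * N * D)
    {Λ : Ideal ℤbar} (hΛ : Λ.IsMaximal) (hℓΛ : (ℓ : ℤbar) ∈ Λ) :
    ∃ (v : CuspForm (Gamma1 (N * ℓ)) 2) (ψ : DirichletCharacter ℂ (N * ℓ)) (b : ℕ → ℂ), v ≠ 0 ∧
      (∀ γ : SL(2, ℤ), γ ∈ Gamma0 (N * ℓ) →
        (v : ℍ → ℂ) ∣[(2 : ℤ)] γ = ψ ((γ 1 1 : ℤ) : ZMod (N * ℓ)) • (v : ℍ → ℂ)) ∧
      (∀ p : ℕ, p.Prime → ¬ p ∣ N * ℓ → ∀ n : ℕ,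
        qCoeff v (p * n) + (p : ℂ) * ψ (p : ZMod (N * ℓ)) *
          (if p ∣ n then qCoeff v (n / p) else 0) = b p * qCoeff v n) ∧
      ∀ p : ℕ, p.Prime → ¬ p ∣ N * ℓ →
        DsctIn Λ (b p - qCoeff f₀ p) ∧
        DsctIn Λ ((p : ℂ) * ψ (p : ZMod (N * ℓ)) - ε (p : ZMod N)) := by
  classical
  -- arithmetic of `ℓ`
  have hℓ2 : ℓ ≠ 2 := by
    rintro rfl
    exact hℓN (Dvd.dvd.mul_right (Dvd.intro _ rfl) D)
  have hℓD : ¬ ℓ ∣ D := fun hd => hℓN (Dvd.dvd.mul_left hd _)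
  have hℓ3 : 3 ≤ ℓ := by
    have := hℓ.two_le
    omega
  have hM3 : 3 ≤ N * ℓ := by
    have : 1 ≤ N := Nat.one_le_iff_ne_zero.mpr (NeZero.ne N)
    calc 3 ≤ ℓ := hℓ3
      _ = 1 * ℓ := (one_mul ℓ).symm
      _ ≤ N * ℓ := Nat.mul_le_mul_right ℓ this
  set M := N * ℓ with hM
  set g₀ := dsctG0 ℓ f₀ D with hg₀
  -- the ideal `m₀`
  have hm₀ : dsctM0 M Λ g₀ ≠ ⊤ := by
    refine dsctM0_ne_top M (n := 1) ?_
    rw [hg₀, dsctG0_qCoeff_one hℓ hℓ2 h D]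
    have : ((D : ℕ) : ℂ) = ((D : ℤ) : ℂ) := by push_cast; rfl
    rw [this, dsct_intCast_in hℓ hΛ hℓΛ]
    exact_mod_cast hℓD
  have hfd : FiniteDimensional ℂ (CuspForm (Gamma1 M) 2) := ds_finiteDimensional M 2
  obtain ⟨v, χ, hv, hχ, hlift⟩ := Fermat.Agent.S41.s41asl_exists_character
    (dsctT M).subtype (Subtype.val_injective) (dsctM0 M Λ g₀) hm₀
  have hχ' : ∀ t : dsctT M, (t : Module.End ℂ (CuspForm (Gamma1 M) 2)) v = χ t • v := hχ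
  obtain ⟨χ', 𝔪', hχ'c, h𝔪', hm⟩ := hlift (dsct_isIntegral_character M hM3 hv χ hχ')
  -- `χ` on scalars
  have hsc : ∀ z : ℤbar, χ (dsctScalar M z) = (z : ℂ) := by
    intro z
    have h1 := hχ' (dsctScalar M z)
    have h2 : ((dsctScalar M z : dsctT M) : Module.End ℂ (CuspForm (Gamma1 M) 2)) v
        = (z : ℂ) • v := by
      show ((z : ℂ) • (1 : Module.End ℂ (CuspForm (Gamma1 M) 2))) v = (z : ℂ) • v
      rw [LinearMap.smul_apply, Module.End.one_apply]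
    rw [h2] at h1
    exact (smul_left_injective ℂ hv h1).symm
  have hsc' : ∀ z : ℤbar, χ' (dsctScalar M z) = z := by
    intro z
    apply Subtype.ext
    rw [hχ'c, hsc]
  have hg₀int := fun (d : (ZMod M)ˣ) (n : ℕ) => dsctG0_isIntegral hℓ hℓ2 h D hint hΛ hℓΛ d n
  -- `𝔪' = Λ`
  have hle : Λ ≤ 𝔪' := by
    intro z hz
    have := hm _ (dsct_scalar_mem_M0 M (g₀ := g₀) hg₀int hz)
    rwa [hsc'] at this
  have h𝔪eq : 𝔪' = Λ := (hΛ.eq_of_le h𝔪'.ne_top hle).symm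
  -- membership in `Λ` from membership in `m₀`
  have hmem : ∀ t ∈ dsctM0 M Λ g₀, DsctIn Λ (χ t) := by
    intro t ht
    have := hm t ht
    rw [h𝔪eq] at this
    have h2 := DsctIn.of_mem this
    rwa [hχ'c] at h2
  refine ⟨v, dsctPsi χ, fun p => if hp : p.Prime ∧ ¬ p ∣ M then χ (dsctTp M hp.1 hp.2) else 0, hv,
    ?_, ?_, ?_⟩
  · -- nebentypus
    intro γ hγ
    obtain ⟨d, hd⟩ := dsct_isUnit_gamma0 γ hγ
    rw [← hd, dsctPsi_coe, ← dsDiamond_coe M 2 d v γ hγ hd.symm]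
    have := hχ' (dsctDia M d)
    have h2 : ((dsctDia M d : dsctT M) : Module.End ℂ (CuspForm (Gamma1 M) 2)) v
        = dsDiamond M 2 d v := rfl
    rw [h2] at this
    rw [this]
    rfl
  · -- Hecke relations
    intro p hp hpM n
    beta_reduce
    rw [dif_pos ⟨hp, hpM⟩]
    have h1 := hχ' (dsctTp M hp hpM)
    have h2 : ((dsctTp M hp hpM : dsctT M) : Module.End ℂ (CuspForm (Gamma1 M) 2)) v
        = dsHeckeT M 2 hp hpM v := rfl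
    rw [h2] at h1
    have h3 := hχ' (dsctDia M (dsctUnit M hp hpM))
    have h4 : ((dsctDia M (dsctUnit M hp hpM) : dsctT M) :
        Module.End ℂ (CuspForm (Gamma1 M) 2)) v = dsDiamond M 2 (dsctUnit M hp hpM) v := rfl
    rw [h4] at h3
    have h5 := dsct_qCoeff_heckeT M 2 hp hpM v n
    rw [h1, h3, dsct_qCoeff_smul, dsct_two_sub_one] at h5
    have h6 : dsctPsi χ ((p : ℕ) : ZMod M) = χ (dsctDia M (dsctUnit M hp hpM)) := by
      rw [← dsctUnit_coe M hp hpM, dsctPsi_coe]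
    rw [h6, h5]
    split_ifs
    · rw [dsct_qCoeff_smul]; ring
    · ring
  · -- congruences
    intro p hp hpM
    beta_reduce
    rw [dif_pos ⟨hp, hpM⟩]
    have hpN : ¬ p ∣ N := fun hd => hpM (Dvd.dvd.mul_right hd ℓ)
    have hap : IsIntegral ℤ (qCoeff f₀ p) := ds_isIntegral h hp hpN
    constructor
    · have h1 := hmem _ (dsct_heckeT_sub_mem_M0 M hp hpM ⟨qCoeff f₀ p, hap⟩
        (fun d n => dsctG0_hecke hℓ hℓ2 h D hint hΛ hℓΛ hp hpM d n))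
      rwa [map_sub, hsc] at h1
    · set u := dsctUnit M hp hpM with hu
      have hw : IsIntegral ℤ (dsctE ε u * dsctKappa ℓ (dsctV u)) :=
        (dsctE_isIntegral ε u).mul (dsctKappa_isIntegral hℓ hℓ2 (dsctV_not_dvd hℓ u))
      have h1 := hmem _ (dsct_diamond_sub_mem_M0 M u ⟨_, hw⟩
        (fun d n => dsctG0_diamond hℓ hℓ2 h D hint hΛ hℓΛ u d n))
      rw [map_sub, hsc] at h1
      have h6 : dsctPsi χ ((p : ℕ) : ZMod M) = χ (dsctDia M u) := by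
        rw [← dsctUnit_coe M hp hpM, dsctPsi_coe]
      have h7 := dsct_p_mul_w hℓ hℓ2 hΛ hℓΛ ε hp hpM
      have hpI : IsIntegral ℤ ((p : ℕ) : ℂ) := by
        have : IsIntegral ℤ (((p : ℤ)) : ℂ) := isIntegral_algebraMap
        simpa using this
      have e : (p : ℂ) * dsctPsi χ ((p : ℕ) : ZMod M) - ε (p : ZMod N)
          = (p : ℂ) * (χ (dsctDia M u) - dsctE ε u * dsctKappa ℓ (dsctV u))
            + ((p : ℂ) * (dsctE ε u * dsctKappa ℓ (dsctV u)) - ε (p : ZMod N)) := by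
        rw [h6]; ring
      rw [e]
      exact (h1.mul_left hpI).add h7

/-! ### CT6b -/

theorem dsct_charP {ℓ : ℕ} (hℓ : ℓ.Prime) {Λ : Ideal ℤbar} (hΛ : Λ.IsMaximal)
    (hℓΛ : (ℓ : ℤbar) ∈ Λ) : CharP (ℤbar ⧸ Λ) ℓ := by
  refine ⟨fun x => ?_⟩
  have h1 : ((x : ℕ) : ℤbar ⧸ Λ) = Ideal.Quotient.mk Λ ((x : ℤ) : ℤbar) := by
    simp
  rw [h1, Ideal.Quotient.eq_zero_iff_mem, dsct_int_mem hℓ hΛ hℓΛ]
  exact Int.natCast_dvd_natCast

theorem dsct_not_dvd_mul_self {p N ℓ : ℕ} (hp : p.Prime) (h : ¬ p ∣ N * ℓ) : ¬ p ∣ N * ℓ * ℓ := by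
  intro hd
  rcases (Nat.Prime.dvd_mul hp).mp hd with h1 | h1
  · exact h h1
  · exact h (Dvd.dvd.mul_left h1 N)

/-- CT6b: the mod `Λ` representation attached to a model `f₀` with denominators bounded by `D`,
for `ℓ ∤ 2 N D`, `N ℓ ≥ 7`; `φ` is the reduction modulo `Λ` itself. -/
theorem dsct_residual (hBB1 : DsBB1) {N : ℕ} [NeZero N] {ε : DirichletCharacter ℂ N}
    {f₀ : CuspForm (Gamma1 N) 1} (h : DsEigen N ε f₀) (D : ℕ)
    (hint : ∀ n, IsIntegral ℤ ((D : ℂ) * qCoeff f₀ n))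
    {ℓ : ℕ} (hℓ : ℓ.Prime) (hℓN : ¬ ℓ ∣ 2 * N * D) (h5 : 7 ≤ N * ℓ)
    {Λ : Ideal ℤbar} (hΛ : Λ.IsMaximal) (hℓΛ : (ℓ : ℤbar) ∈ Λ) :
    ∃ (k : Type) (_ : Field k) (_ : CharP k ℓ) (φ : ℤbar →+* k), RingHom.ker φ = Λ ∧
      ∃ ρ : ResidualGaloisRep k,
        (∀ p : ℕ, p.Prime → ¬ p ∣ N * ℓ → ρ.IsUnramifiedAt p) ∧
        ∀ p : ℕ, p.Prime → ¬ p ∣ N * ℓ →
          ∀ A : ValuationSubring (AlgebraicClosure ℚ), A.LiesOverPrime p →
            ∀ σ : Γℚ, A.IsFrobeniusAt σ p →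
              ∃ x y : ℤbar, (x : ℂ) = qCoeff f₀ p ∧ (y : ℂ) = ε (p : ZMod N) ∧
                LinearMap.charpoly (ρ.ρ σ) = X ^ 2 - C (φ x) * X + C (φ y) := by
  have : NeZero ℓ := ⟨hℓ.ne_zero⟩
  obtain ⟨v, ψ, b, hv, hneb, hhecke, hcong⟩ := dsct_exists_eigenvector h D hint hℓ hℓN hΛ hℓΛ
  have := hΛ
  let _ : Field (ℤbar ⧸ Λ) := Ideal.Quotient.field Λ
  have : CharP (ℤbar ⧸ Λ) ℓ := dsct_charP hℓ hΛ hℓΛ
  obtain ⟨ρ, hur, hfrob⟩ := hBB1 (N * ℓ) h5 v ψ b hv hneb hhecke ℓ hℓ (ℤbar ⧸ Λ)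
    (Ideal.Quotient.mk Λ)
  refine ⟨ℤbar ⧸ Λ, inferInstance, inferInstance, Ideal.Quotient.mk Λ, Ideal.mk_ker, ρ, ?_, ?_⟩
  · intro p hp hpNl
    exact hur p hp (dsct_not_dvd_mul_self hp hpNl)
  · intro p hp hpNl A hA σ hσ
    obtain ⟨x, y, hx, hy, hc⟩ := hfrob p hp (dsct_not_dvd_mul_self hp hpNl) A hA σ hσ
    obtain ⟨h1, h2⟩ := hcong p hp hpNl
    have hpN : ¬ p ∣ N := fun hd => hpNl (Dvd.dvd.mul_right hd ℓ)
    have hap : IsIntegral ℤ (qCoeff f₀ p) := ds_isIntegral h hp hpN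
    have hεp : IsIntegral ℤ (ε (p : ZMod N)) := dsct_isIntegral_char ε _
    refine ⟨⟨qCoeff f₀ p, hap⟩, ⟨ε (p : ZMod N), hεp⟩, rfl, rfl, ?_⟩
    have e1 : Ideal.Quotient.mk Λ x = Ideal.Quotient.mk Λ ⟨qCoeff f₀ p, hap⟩ := by
      rw [Ideal.Quotient.eq, ← DsctIn.mem_iff]
      have : ((x - ⟨qCoeff f₀ p, hap⟩ : ℤbar) : ℂ) = b p - qCoeff f₀ p := by
        push_cast; rw [hx]
      rw [this]
      exact h1
    have e2 : Ideal.Quotient.mk Λ y = Ideal.Quotient.mk Λ ⟨ε (p : ZMod N), hεp⟩ := by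
      rw [Ideal.Quotient.eq, ← DsctIn.mem_iff]
      have : ((y - ⟨ε (p : ZMod N), hεp⟩ : ℤbar) : ℂ)
          = (p : ℂ) * ψ (p : ZMod (N * ℓ)) - ε (p : ZMod N) := by
        push_cast; rw [hy]
      rw [this]
      exact h2
    rw [hc, e1, e2]

/-- **CT main** (the shape of helper17's `DsResidualExists`, for all large `ℓ`). -/
theorem ds_residual_exists (hBB1 : DsBB1) {N : ℕ} [NeZero N] {ε : DirichletCharacter ℂ N}
    {f : CuspForm (Gamma1 N) 1} (h : DsEigen N ε f) :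
    ∃ B₀ : ℕ, ∀ ℓ : ℕ, ℓ.Prime → B₀ < ℓ → ¬ ℓ ∣ 2 * N →
      ∀ Λ : Ideal ℤbar, Λ.IsMaximal → (ℓ : ℤbar) ∈ Λ →
        ∃ (k : Type) (_ : Field k) (_ : CharP k ℓ) (φ : ℤbar →+* k), RingHom.ker φ = Λ ∧
          ∃ ρ : ResidualGaloisRep k,
            (∀ p : ℕ, p.Prime → ¬ p ∣ N * ℓ → ρ.IsUnramifiedAt p) ∧
            ∀ p : ℕ, p.Prime → ¬ p ∣ N * ℓ →
              ∀ A : ValuationSubring (AlgebraicClosure ℚ), A.LiesOverPrime p →
                ∀ σ : Γℚ, A.IsFrobeniusAt σ p →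
                  ∃ x y : ℤbar, (x : ℂ) = qCoeff f p ∧ (y : ℂ) = ε (p : ZMod N) ∧
                    LinearMap.charpoly (ρ.ρ σ) = X ^ 2 - C (φ x) * X + C (φ y) := by
  obtain ⟨f₀, D, hD, hE, hap, hco⟩ := ds_exists_model h
  refine ⟨max D 5, fun ℓ hℓ hB hℓ2N Λ hΛ hℓΛ => ?_⟩
  have hDℓ : D < ℓ := lt_of_le_of_lt (le_max_left D 5) hB
  have h5ℓ : 5 < ℓ := lt_of_le_of_lt (le_max_right D 5) hB
  have hℓN' : ¬ ℓ ∣ 2 * N * D := by
    intro hd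
    rcases (Nat.Prime.dvd_mul hℓ).mp hd with h1 | h1
    · exact hℓ2N h1
    · exact absurd (Nat.le_of_dvd (Nat.pos_of_ne_zero hD) h1) (not_le.mpr hDℓ)
  have h7ℓ : 7 ≤ ℓ := by
    rcases Nat.lt_or_ge ℓ 7 with h | h
    · have h6 : ℓ = 6 := by omega
      rw [h6] at hℓ
      exact absurd hℓ (by decide)
    · exact h
  have h5 : 7 ≤ N * ℓ := by
    have : 1 ≤ N := Nat.one_le_iff_ne_zero.mpr (NeZero.ne N)
    calc 7 ≤ ℓ := h7ℓ
      _ = 1 * ℓ := (one_mul ℓ).symm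
      _ ≤ N * ℓ := Nat.mul_le_mul_right ℓ this
  obtain ⟨k, i1, i2, φ, hker, ρ, hur, hfr⟩ :=
    dsct_residual hBB1 hE D (fun n => (hco n).2) hℓ hℓN' h5 hΛ hℓΛ
  refine ⟨k, i1, i2, φ, hker, ρ, hur, ?_⟩
  intro p hp hpNl A hA σ hσ
  have hpN : ¬ p ∣ N := fun hd => hpNl (Dvd.dvd.mul_right hd ℓ)
  obtain ⟨x, y, hx, hy, hc⟩ := hfr p hp hpNl A hA σ hσ
  exact ⟨x, y, by rw [hx, hap p hp hpN], hy, hc⟩

end Fermat.Agent.DS
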